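/-
Row 38 (S44), block G, seat G2 (helper54): the theorem of Boston–Lenstra–Ribet, in the form needed.

`Γ` a group, `k` a field, `ρ : Γ →* GL (Fin 2) k` whose image spans `M₂(k)` (e.g. `ρ` absolutely
irreducible), `σ` a representation of `Γ` on a nonzero `k`-vector space `V` such that every `γ`
satisfies the characteristic polynomial of `ρ γ`:  `σ γ ^ 2 - tr ρ(γ) σ γ + det ρ(γ) = 0`.
Then `ρ` embeds in `V` (`blr_embed`): there is an injective `Γ`-equivariant linear map `k² → V`.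

* `blr_polar` : the polarised identity on the group algebra;
* `blr_ker` : the kernel of `k[Γ] → M₂(k)` acts as `0` on `V`;
* `blr_embed` : the embedding, for `k[Γ] → M₂(k)` onto; `blr_embed_of_span` : span form;
* `blrRho_surjective_of_diag` : `k[Γ] → M₂(k)` is onto if some `ρ c` is `diag(a, b)` with `a ≠ b`
  and neither coordinate axis is stable (irreducible + odd, in an eigenbasis of `c`).

No finiteness hypothesis is needed (neither on `Γ` nor on `V`).  Mathlib only.
-/
import Mathlib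

set_option autoImplicit false
set_option linter.unusedSimpArgs false

namespace Fermat.Agent.R38

open Matrix

section Mat

variable {k : Type*} [Field k]

lemma blr_m1 : (!![1, 0; 0, 0] : Matrix (Fin 2) (Fin 2) k) * !![1, 0; 0, 0] = !![1, 0; 0, 0] := by
  ext i j; fin_cases i <;> fin_cases j <;> simp [Matrix.mul_apply, Fin.sum_univ_two]

lemma blr_m2 : (!![0, 1; 0, 0] : Matrix (Fin 2) (Fin 2) k) * !![1, 0; 0, 0] = 0 := by
  ext i j; fin_cases i <;> fin_cases j <;> simp [Matrix.mul_apply, Fin.sum_univ_two]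

lemma blr_m3 : (!![1, 0; 0, 0] : Matrix (Fin 2) (Fin 2) k) * !![0, 0; 1, 0] = 0 := by
  ext i j; fin_cases i <;> fin_cases j <;> simp [Matrix.mul_apply, Fin.sum_univ_two]

lemma blr_m4 : (!![0, 1; 0, 0] : Matrix (Fin 2) (Fin 2) k) * !![0, 0; 1, 0] = !![1, 0; 0, 0] := by
  ext i j; fin_cases i <;> fin_cases j <;> simp [Matrix.mul_apply, Fin.sum_univ_two]

lemma blr_m5 : (!![1, 0; 0, 0] : Matrix (Fin 2) (Fin 2) k)
    + !![0, 0; 1, 0] * !![1, 0; 0, 0] * !![0, 1; 0, 0] = 1 := by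
  ext i j; fin_cases i <;> fin_cases j <;> simp [Matrix.mul_apply, Fin.sum_univ_two]

lemma blr_m6 (M : Matrix (Fin 2) (Fin 2) k) : M * !![1, 0; 0, 0]
    = M 0 0 • (!![1, 0; 0, 0] : Matrix (Fin 2) (Fin 2) k)
      + M 1 0 • ((!![0, 0; 1, 0] : Matrix (Fin 2) (Fin 2) k) * !![1, 0; 0, 0]) := by
  ext i j; fin_cases i <;> fin_cases j <;> simp [Matrix.mul_apply, Fin.sum_univ_two]

lemma blr_m7 (M : Matrix (Fin 2) (Fin 2) k) :
    M * ((!![0, 0; 1, 0] : Matrix (Fin 2) (Fin 2) k) * !![1, 0; 0, 0])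
    = M 0 1 • (!![1, 0; 0, 0] : Matrix (Fin 2) (Fin 2) k)
      + M 1 1 • ((!![0, 0; 1, 0] : Matrix (Fin 2) (Fin 2) k) * !![1, 0; 0, 0]) := by
  ext i j; fin_cases i <;> fin_cases j <;> simp [Matrix.mul_apply, Fin.sum_univ_two]

lemma blr_t1 : (!![0, 1; 0, 0] : Matrix (Fin 2) (Fin 2) k).trace = 0 := by
  simp [Matrix.trace_fin_two]

lemma blr_t2 : (!![0, 0; 1, 0] : Matrix (Fin 2) (Fin 2) k).trace = 0 := by
  simp [Matrix.trace_fin_two]

lemma blr_t3 : ((!![0, 1; 0, 0] : Matrix (Fin 2) (Fin 2) k) * !![0, 0; 1, 0]).trace = 1 := by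
  rw [blr_m4]
  simp [Matrix.trace_fin_two]

lemma blr_t4 : ((!![0, 1; 0, 0] : Matrix (Fin 2) (Fin 2) k) * !![0, 0; 1, 0]
    * ((!![0, 1; 0, 0] : Matrix (Fin 2) (Fin 2) k) * !![0, 0; 1, 0])).trace = 1 := by
  rw [blr_m4, blr_m1]
  simp [Matrix.trace_fin_two]

end Mat

section Diag

variable {k : Type*} [Field k]

lemma blr_d1 (a b : k) (hab : a ≠ b) :
    (!![1, 0; 0, 0] : Matrix (Fin 2) (Fin 2) k) =
      (a - b)⁻¹ • ((!![a, 0; 0, b] : Matrix (Fin 2) (Fin 2) k) - b • 1) := by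
  have h : a - b ≠ 0 := sub_ne_zero.mpr hab
  ext i j; fin_cases i <;> fin_cases j <;> simp [h]

lemma blr_d2 (a b : k) (hab : a ≠ b) :
    (!![0, 0; 0, 1] : Matrix (Fin 2) (Fin 2) k) =
      (b - a)⁻¹ • ((!![a, 0; 0, b] : Matrix (Fin 2) (Fin 2) k) - a • 1) := by
  have h : b - a ≠ 0 := sub_ne_zero.mpr (Ne.symm hab)
  ext i j; fin_cases i <;> fin_cases j <;> simp [h]

lemma blr_d3' (x00 x01 x10 x11 : k) (hX : x10 ≠ 0) :
    (!![0, 0; 1, 0] : Matrix (Fin 2) (Fin 2) k) =
      x10⁻¹ • ((!![0, 0; 0, 1] : Matrix (Fin 2) (Fin 2) k) * !![x00, x01; x10, x11]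
        * !![1, 0; 0, 0]) := by
  rw [Matrix.mul_fin_two, Matrix.mul_fin_two]
  ext i j; fin_cases i <;> fin_cases j <;> simp [hX]

lemma blr_d3 (X : Matrix (Fin 2) (Fin 2) k) (hX : X 1 0 ≠ 0) :
    (!![0, 0; 1, 0] : Matrix (Fin 2) (Fin 2) k) =
      (X 1 0)⁻¹ • ((!![0, 0; 0, 1] : Matrix (Fin 2) (Fin 2) k) * X * !![1, 0; 0, 0]) := by
  have h := blr_d3' (X 0 0) (X 0 1) (X 1 0) (X 1 1) hX
  rwa [← Matrix.eta_fin_two X] at h

lemma blr_d4' (x00 x01 x10 x11 : k) (hY : x01 ≠ 0) :
    (!![0, 1; 0, 0] : Matrix (Fin 2) (Fin 2) k) =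
      x01⁻¹ • ((!![1, 0; 0, 0] : Matrix (Fin 2) (Fin 2) k) * !![x00, x01; x10, x11]
        * !![0, 0; 0, 1]) := by
  rw [Matrix.mul_fin_two, Matrix.mul_fin_two]
  ext i j; fin_cases i <;> fin_cases j <;> simp [hY]

lemma blr_d4 (Y : Matrix (Fin 2) (Fin 2) k) (hY : Y 0 1 ≠ 0) :
    (!![0, 1; 0, 0] : Matrix (Fin 2) (Fin 2) k) =
      (Y 0 1)⁻¹ • ((!![1, 0; 0, 0] : Matrix (Fin 2) (Fin 2) k) * Y * !![0, 0; 0, 1]) := by
  have h := blr_d4' (Y 0 0) (Y 0 1) (Y 1 0) (Y 1 1) hY
  rwa [← Matrix.eta_fin_two Y] at h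

lemma blr_d5 (M : Matrix (Fin 2) (Fin 2) k) :
    M = M 0 0 • (!![1, 0; 0, 0] : Matrix (Fin 2) (Fin 2) k) + M 0 1 • !![0, 1; 0, 0]
      + M 1 0 • !![0, 0; 1, 0] + M 1 1 • !![0, 0; 0, 1] := by
  ext i j; fin_cases i <;> fin_cases j <;> simp

/-- A subalgebra of `M₂(k)` containing `diag(a, b)`, `a ≠ b`, a matrix with nonzero lower left
entry and a matrix with nonzero upper right entry is everything. -/
lemma blr_subalgebra_eq_top (R : Subalgebra k (Matrix (Fin 2) (Fin 2) k)) (a b : k) (hab : a ≠ b)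
    (hD : (!![a, 0; 0, b] : Matrix (Fin 2) (Fin 2) k) ∈ R)
    (X : Matrix (Fin 2) (Fin 2) k) (hXR : X ∈ R) (hX : X 1 0 ≠ 0)
    (Y : Matrix (Fin 2) (Fin 2) k) (hYR : Y ∈ R) (hY : Y 0 1 ≠ 0) : R = ⊤ := by
  have h11 : (!![1, 0; 0, 0] : Matrix (Fin 2) (Fin 2) k) ∈ R := by
    rw [blr_d1 a b hab]
    exact R.smul_mem (R.sub_mem hD (R.smul_mem R.one_mem _)) _
  have h22 : (!![0, 0; 0, 1] : Matrix (Fin 2) (Fin 2) k) ∈ R := by
    rw [blr_d2 a b hab]
    exact R.smul_mem (R.sub_mem hD (R.smul_mem R.one_mem _)) _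
  have h21 : (!![0, 0; 1, 0] : Matrix (Fin 2) (Fin 2) k) ∈ R := by
    rw [blr_d3 X hX]
    exact R.smul_mem (R.mul_mem (R.mul_mem h22 hXR) h11) _
  have h12 : (!![0, 1; 0, 0] : Matrix (Fin 2) (Fin 2) k) ∈ R := by
    rw [blr_d4 Y hY]
    exact R.smul_mem (R.mul_mem (R.mul_mem h11 hYR) h22) _
  rw [eq_top_iff]
  intro M _
  rw [blr_d5 M]
  exact R.add_mem (R.add_mem (R.add_mem (R.smul_mem h11 _) (R.smul_mem h12 _))
    (R.smul_mem h21 _)) (R.smul_mem h22 _)

end Diag

section Polar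

variable {k : Type*} [Field k] {A : Type*} [Ring A] [Algebra k A]

/-- Polarised Cayley–Hamilton from the quadratic relations of `G`, `H` and `G * H`. -/
lemma blr_polar_aux (G H : A) (tg th tgh dg dh : k)
    (hg : G * G = tg • G - dg • (1 : A)) (hh : H * H = th • H - dh • (1 : A))
    (hgh : (G * H) * (G * H) = tgh • (G * H) - (dg * dh) • (1 : A))
    (hinv : ∃ Z : A, Z * (G * H) = 1) :
    G * H + H * G = tg • H + th • G + (tgh - tg * th) • (1 : A) := by
  obtain ⟨Z, hZ⟩ := hinv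
  have key : (G * H) * (G * H + H * G - tg • H - th • G - (tgh - tg * th) • (1 : A)) = 0 := by
    have e2 : (G * H) * (H * G) = th • (G * H * G) - (dh * tg) • G + (dh * dg) • (1 : A) := by
      have : (G * H) * (H * G) = G * (H * H) * G := by noncomm_ring
      rw [this, hh, mul_sub, sub_mul, mul_smul_comm, smul_mul_assoc, mul_smul_comm, mul_one,
        smul_mul_assoc, hg, smul_sub, smul_smul, smul_smul]
      module
    have e3 : (G * H) * (tg • H) = (tg * th) • (G * H) - (tg * dh) • G := by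
      rw [mul_smul_comm, mul_assoc, hh, mul_sub, mul_smul_comm, mul_smul_comm, mul_one, smul_sub,
        smul_smul, smul_smul]
    have e4 : (G * H) * (th • G) = th • (G * H * G) := by
      rw [mul_smul_comm]
    have e5 : (G * H) * ((tgh - tg * th) • (1 : A)) = (tgh - tg * th) • (G * H) := by
      rw [mul_smul_comm, mul_one]
    rw [mul_sub, mul_sub, mul_sub, mul_add, hgh, e2, e3, e4, e5]
    module
  have h := congrArg (fun X => Z * X) key
  simp only [mul_zero] at h
  rw [← mul_assoc, hZ, one_mul] at h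
  have h' := sub_eq_zero.mp h
  rw [sub_sub, sub_eq_iff_eq_add] at h'
  rw [h']
  module

end Polar

section Ext

variable {k : Type*} [Field k] {Γ : Type*} [Group Γ] {A : Type*} [Ring A] [Algebra k A]

/-- The polarised identity extends from the group to the group algebra. -/
lemma blr_polar_ext (π : MonoidAlgebra k Γ →ₐ[k] A) (τ : MonoidAlgebra k Γ →ₗ[k] k)
    (h : ∀ g h : Γ, π (.of k Γ g) * π (.of k Γ h) + π (.of k Γ h) * π (.of k Γ g) =
        τ (.of k Γ g) • π (.of k Γ h) + τ (.of k Γ h) • π (.of k Γ g)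
          + (τ (.of k Γ g * .of k Γ h) - τ (.of k Γ g) * τ (.of k Γ h)) • (1 : A))
    (x y : MonoidAlgebra k Γ) :
    π x * π y + π y * π x = τ x • π y + τ y • π x + (τ (x * y) - τ x * τ y) • (1 : A) := by
  induction x using MonoidAlgebra.induction_on with
  | of g =>
    induction y using MonoidAlgebra.induction_on with
    | of h' => exact h g h'
    | add y y' hy hy' =>
      rw [map_add, map_add, mul_add, add_mul, mul_add, map_add]
      linear_combination (norm := module) hy + hy'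
    | smul r y hy =>
      rw [map_smul, map_smul, mul_smul_comm, smul_mul_assoc, mul_smul_comm, map_smul,
        smul_eq_mul, smul_eq_mul]
      linear_combination (norm := module) r • hy
  | add x x' hx hx' =>
    rw [map_add, map_add, add_mul, mul_add, add_mul, map_add]
    linear_combination (norm := module) hx + hx'
  | smul r x hx =>
    rw [map_smul, map_smul, smul_mul_assoc, mul_smul_comm, smul_mul_assoc, map_smul,
      smul_eq_mul, smul_eq_mul]
    linear_combination (norm := module) r • hx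

end Ext

section Main

variable {k : Type*} [Field k] {Γ : Type*} [Group Γ] {V : Type*} [AddCommGroup V] [Module k V]

/-- The linear extension of `ρ` to the group algebra. -/
noncomputable def blrRho (ρ : Γ →* GL (Fin 2) k) :
    MonoidAlgebra k Γ →ₐ[k] Matrix (Fin 2) (Fin 2) k :=
  MonoidAlgebra.lift k (Matrix (Fin 2) (Fin 2) k) Γ
    ((Units.coeHom (Matrix (Fin 2) (Fin 2) k)).comp ρ)

lemma blrRho_of (ρ : Γ →* GL (Fin 2) k) (g : Γ) :
    blrRho ρ (.of k Γ g) = (ρ g : Matrix (Fin 2) (Fin 2) k) := by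
  simp [blrRho]

/-- The trace form on the group algebra. -/
noncomputable def blrTr (ρ : Γ →* GL (Fin 2) k) : MonoidAlgebra k Γ →ₗ[k] k :=
  (Matrix.traceLinearMap (Fin 2) k k).comp (blrRho ρ).toLinearMap

lemma blrTr_apply (ρ : Γ →* GL (Fin 2) k) (x : MonoidAlgebra k Γ) :
    blrTr ρ x = (blrRho ρ x).trace := rfl

/-- The span condition gives the surjectivity of `k[Γ] → M₂(k)`. -/
lemma blrRho_surjective (ρ : Γ →* GL (Fin 2) k)
    (hspan : Submodule.span k (Set.range fun γ : Γ => (ρ γ : Matrix (Fin 2) (Fin 2) k)) = ⊤) :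
    Function.Surjective (blrRho ρ) := by
  intro m
  have hm : m ∈ Submodule.span k (Set.range fun γ : Γ => (ρ γ : Matrix (Fin 2) (Fin 2) k)) := by
    rw [hspan]
    exact Submodule.mem_top
  induction hm using Submodule.span_induction with
  | mem x hx =>
    obtain ⟨γ, rfl⟩ := hx
    exact ⟨.of k Γ γ, blrRho_of ρ γ⟩
  | zero => exact ⟨0, map_zero _⟩
  | add x y _ _ hx hy =>
    obtain ⟨a, rfl⟩ := hx
    obtain ⟨b, rfl⟩ := hy
    exact ⟨a + b, map_add _ _ _⟩
  | smul r x _ hx =>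
    obtain ⟨a, rfl⟩ := hx
    exact ⟨r • a, map_smul _ _ _⟩

variable (ρ : Γ →* GL (Fin 2) k) (σ : Representation k Γ V)

/-- **The polarised identity on the group algebra.** -/
theorem blr_polar
    (hCH : ∀ γ : Γ, σ γ * σ γ - (ρ γ : Matrix (Fin 2) (Fin 2) k).trace • σ γ
      + (ρ γ : Matrix (Fin 2) (Fin 2) k).det • (1 : Module.End k V) = 0)
    (x y : MonoidAlgebra k Γ) :
    σ.asAlgebraHom x * σ.asAlgebraHom y + σ.asAlgebraHom y * σ.asAlgebraHom x =
      blrTr ρ x • σ.asAlgebraHom y + blrTr ρ y • σ.asAlgebraHom x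
        + (blrTr ρ (x * y) - blrTr ρ x * blrTr ρ y) • (1 : Module.End k V) := by
  have hq : ∀ γ : Γ, σ γ * σ γ = (ρ γ : Matrix (Fin 2) (Fin 2) k).trace • σ γ
      - (ρ γ : Matrix (Fin 2) (Fin 2) k).det • (1 : Module.End k V) := by
    intro γ
    have h := hCH γ
    linear_combination (norm := module) h
  refine blr_polar_ext σ.asAlgebraHom (blrTr ρ) (fun g h => ?_) x y
  have e1 : ∀ γ : Γ, blrTr ρ (.of k Γ γ) = (ρ γ : Matrix (Fin 2) (Fin 2) k).trace := fun γ => by
    rw [blrTr_apply, blrRho_of]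
  have e2 : blrTr ρ (.of k Γ g * .of k Γ h) = (ρ (g * h) : Matrix (Fin 2) (Fin 2) k).trace := by
    rw [← map_mul, e1]
  rw [Representation.asAlgebraHom_of, Representation.asAlgebraHom_of, e1, e1, e2]
  refine blr_polar_aux (σ g) (σ h) _ _ _ _ _ (hq g) (hq h) ?_ ⟨σ (g * h)⁻¹, ?_⟩
  · have h1 := hq (g * h)
    have h2 : (ρ (g * h) : Matrix (Fin 2) (Fin 2) k).det =
        (ρ g : Matrix (Fin 2) (Fin 2) k).det * (ρ h : Matrix (Fin 2) (Fin 2) k).det := by
      rw [map_mul ρ g h, Units.val_mul, Matrix.det_mul]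
    rw [map_mul σ g h, h2] at h1
    exact h1
  · rw [← map_mul σ g h, ← map_mul, inv_mul_cancel, map_one]

/-- **The kernel of `k[Γ] → M₂(k)` acts as `0`.** -/
theorem blr_ker
    (hsurj : Function.Surjective (blrRho ρ))
    (hCH : ∀ γ : Γ, σ γ * σ γ - (ρ γ : Matrix (Fin 2) (Fin 2) k).trace • σ γ
      + (ρ γ : Matrix (Fin 2) (Fin 2) k).det • (1 : Module.End k V) = 0)
    (x : MonoidAlgebra k Γ) (hx : blrRho ρ x = 0) : σ.asAlgebraHom x = 0 := by
  obtain ⟨u, hu⟩ := hsurj !![0, 1; 0, 0]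
  obtain ⟨v, hv⟩ := hsurj !![0, 0; 1, 0]
  set X := σ.asAlgebraHom x with hX
  set U := σ.asAlgebraHom u with hU
  set W := σ.asAlgebraHom v with hW
  -- `X Y + Y X = τ(y) X`
  have star : ∀ y : MonoidAlgebra k Γ,
      X * σ.asAlgebraHom y + σ.asAlgebraHom y * X = blrTr ρ y • X := by
    intro y
    have h := blr_polar ρ σ hCH x y
    have h1 : blrTr ρ x = 0 := by rw [blrTr_apply, hx, Matrix.trace_zero]
    have h2 : blrTr ρ (x * y) = 0 := by rw [blrTr_apply, map_mul, hx, zero_mul, Matrix.trace_zero]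
    rw [h1, h2] at h
    rw [h]
    module
  have tu : blrTr ρ u = 0 := by
    rw [blrTr_apply, hu]
    exact blr_t1
  have tv : blrTr ρ v = 0 := by
    rw [blrTr_apply, hv]
    exact blr_t2
  have tuv : blrTr ρ (u * v) = 1 := by
    rw [blrTr_apply, map_mul, hu, hv]
    exact blr_t3
  have tuvuv : blrTr ρ (u * v * (u * v)) = 1 := by
    rw [blrTr_apply, map_mul, map_mul, hu, hv]
    exact blr_t4
  have s1 : X * U + U * X = 0 := by
    have := star u
    rwa [tu, zero_smul] at this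
  have s2 : X * W + W * X = 0 := by
    have := star v
    rwa [tv, zero_smul] at this
  have s3 : X * (U * W) + (U * W) * X = X := by
    have := star (u * v)
    rwa [tuv, one_smul, map_mul] at this
  have c1 : X * (U * W) = (U * W) * X := by
    have e1 : X * U = -(U * X) := eq_neg_of_add_eq_zero_left s1
    have e2 : X * W = -(W * X) := eq_neg_of_add_eq_zero_left s2
    calc X * (U * W) = (X * U) * W := by rw [mul_assoc]
      _ = -(U * (X * W)) := by rw [e1, neg_mul, mul_assoc]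
      _ = (U * W) * X := by rw [e2, mul_neg, neg_neg, mul_assoc]
  -- `2 P X = X`
  have s4 : (2 : k) • ((U * W) * X) = X := by
    rw [c1] at s3
    rw [two_smul]
    exact s3
  by_cases h2 : (2 : k) = 0
  · rw [← s4, h2, zero_smul]
  · -- `P² = P`
    have hP : (U * W) * (U * W) = U * W := by
      have h := blr_polar ρ σ hCH (u * v) (u * v)
      rw [tuv, tuvuv, map_mul] at h
      have h3 : (2 : k) • ((U * W) * (U * W)) = (2 : k) • (U * W) := by
        rw [two_smul, two_smul]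
        rw [h]
        module
      exact smul_right_injective _ h2 h3
    have h5 : (U * W) * X = 0 := by
      have h6 : (U * W) * ((2 : k) • ((U * W) * X)) = (U * W) * X := by rw [s4]
      rw [mul_smul_comm, ← mul_assoc, hP] at h6
      have h7 : (2 : k) • ((U * W) * X) - (U * W) * X = 0 := sub_eq_zero.mpr h6
      have h8 : (2 : k) • ((U * W) * X) - (U * W) * X = (U * W) * X := by
        rw [two_smul, add_sub_cancel_right]
      rw [h8] at h7
      exact h7
    rw [← s4, h5, smul_zero]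

/-- Elements of the group algebra with the same image in `M₂(k)` act in the same way. -/
lemma blr_congr
    (hsurj : Function.Surjective (blrRho ρ))
    (hCH : ∀ γ : Γ, σ γ * σ γ - (ρ γ : Matrix (Fin 2) (Fin 2) k).trace • σ γ
      + (ρ γ : Matrix (Fin 2) (Fin 2) k).det • (1 : Module.End k V) = 0)
    {x y : MonoidAlgebra k Γ} (h : blrRho ρ x = blrRho ρ y) :
    σ.asAlgebraHom x = σ.asAlgebraHom y := by
  have h1 := blr_ker ρ σ hsurj hCH (x - y) (by rw [map_sub, h, sub_self])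
  rw [map_sub] at h1
  exact sub_eq_zero.mp h1

/-- **Boston–Lenstra–Ribet**: `ρ` embeds in `V`. -/
theorem blr_embed [Nontrivial V]
    (hsurj : Function.Surjective (blrRho ρ))
    (hCH : ∀ γ : Γ, σ γ * σ γ - (ρ γ : Matrix (Fin 2) (Fin 2) k).trace • σ γ
      + (ρ γ : Matrix (Fin 2) (Fin 2) k).det • (1 : Module.End k V) = 0) :
    ∃ φ : (Fin 2 → k) →ₗ[k] V, Function.Injective φ ∧
      ∀ (γ : Γ) (c : Fin 2 → k),
        φ ((ρ γ : Matrix (Fin 2) (Fin 2) k).mulVec c) = σ γ (φ c) := by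
  obtain ⟨e, he⟩ := hsurj !![1, 0; 0, 0]
  obtain ⟨u, hu⟩ := hsurj !![0, 1; 0, 0]
  obtain ⟨v, hv⟩ := hsurj !![0, 0; 1, 0]
  set E := σ.asAlgebraHom e with hE
  set U := σ.asAlgebraHom u with hU
  set W := σ.asAlgebraHom v with hW
  have cg := fun {x y : MonoidAlgebra k Γ} (h : blrRho ρ x = blrRho ρ y) =>
    blr_congr ρ σ hsurj hCH h
  have r1 : E * E = E := by
    have := cg (x := e * e) (y := e) (by
      rw [map_mul, he]
      exact blr_m1)
    rwa [map_mul] at this
  have r2 : U * E = 0 := by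
    have := cg (x := u * e) (y := 0) (by
      rw [map_mul, he, hu, map_zero]
      exact blr_m2)
    rwa [map_mul, map_zero] at this
  have r3 : E * W = 0 := by
    have := cg (x := e * v) (y := 0) (by
      rw [map_mul, he, hv, map_zero]
      exact blr_m3)
    rwa [map_mul, map_zero] at this
  have r4 : U * W = E := by
    have := cg (x := u * v) (y := e) (by
      rw [map_mul, he, hu, hv]
      exact blr_m4)
    rwa [map_mul] at this
  have r5 : E + W * E * U = 1 := by
    have := cg (x := e + v * e * u) (y := 1) (by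
      rw [map_add, map_mul, map_mul, he, hu, hv, map_one]
      exact blr_m5)
    rwa [map_add, map_mul, map_mul, map_one] at this
  have r6 : ∀ γ : Γ, σ γ * E = (ρ γ : Matrix (Fin 2) (Fin 2) k) 0 0 • E
      + (ρ γ : Matrix (Fin 2) (Fin 2) k) 1 0 • (W * E) := by
    intro γ
    have := cg (x := .of k Γ γ * e)
      (y := (ρ γ : Matrix (Fin 2) (Fin 2) k) 0 0 • e
        + (ρ γ : Matrix (Fin 2) (Fin 2) k) 1 0 • (v * e)) (by
      rw [map_mul, map_add, map_smul, map_smul, map_mul, he, hv, blrRho_of]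
      exact blr_m6 _)
    rwa [map_mul, map_add, map_smul, map_smul, map_mul, Representation.asAlgebraHom_of] at this
  have r7 : ∀ γ : Γ, σ γ * (W * E) = (ρ γ : Matrix (Fin 2) (Fin 2) k) 0 1 • E
      + (ρ γ : Matrix (Fin 2) (Fin 2) k) 1 1 • (W * E) := by
    intro γ
    have := cg (x := .of k Γ γ * (v * e))
      (y := (ρ γ : Matrix (Fin 2) (Fin 2) k) 0 1 • e
        + (ρ γ : Matrix (Fin 2) (Fin 2) k) 1 1 • (v * e)) (by
      rw [map_mul, map_mul, map_add, map_smul, map_smul, map_mul, he, hv, blrRho_of]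
      exact blr_m7 _)
    rwa [map_mul, map_add, map_smul, map_smul, map_mul, Representation.asAlgebraHom_of] at this
  -- a vector `w = E w ≠ 0`
  have hE0 : E ≠ 0 := by
    intro h0
    rw [h0, mul_zero, zero_mul, add_zero] at r5
    obtain ⟨a, ha⟩ := exists_ne (0 : V)
    apply ha
    have := congrArg (fun f : Module.End k V => f a) r5
    simpa using this.symm
  obtain ⟨w₀, hw₀⟩ : ∃ w₀ : V, E w₀ ≠ 0 := by
    by_contra hno
    push Not at hno
    exact hE0 (LinearMap.ext hno)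
  set w : V := E w₀ with hw
  have hEw : E w = w := by
    rw [hw, ← Module.End.mul_apply, r1]
  have hUw : U w = 0 := by
    rw [← hEw, ← Module.End.mul_apply, r2]
    rfl
  have hUWw : U (W w) = w := by
    rw [← Module.End.mul_apply, r4, hEw]
  have hEWw : E (W w) = 0 := by
    rw [← Module.End.mul_apply, r3]
    rfl
  have hγw : ∀ γ : Γ, σ γ w = (ρ γ : Matrix (Fin 2) (Fin 2) k) 0 0 • w
      + (ρ γ : Matrix (Fin 2) (Fin 2) k) 1 0 • W w := by
    intro γ
    have := congrArg (fun f : Module.End k V => f w) (r6 γ)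
    simp only [Module.End.mul_apply, LinearMap.add_apply, LinearMap.smul_apply, hEw] at this
    exact this
  have hγWw : ∀ γ : Γ, σ γ (W w) = (ρ γ : Matrix (Fin 2) (Fin 2) k) 0 1 • w
      + (ρ γ : Matrix (Fin 2) (Fin 2) k) 1 1 • W w := by
    intro γ
    have := congrArg (fun f : Module.End k V => f w) (r7 γ)
    simp only [Module.End.mul_apply, LinearMap.add_apply, LinearMap.smul_apply, hEw] at this
    exact this
  -- the embedding
  let φ : (Fin 2 → k) →ₗ[k] V :=
    (LinearMap.proj 0).smulRight w + (LinearMap.proj 1).smulRight (W w)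
  have hφ : ∀ c : Fin 2 → k, φ c = c 0 • w + c 1 • W w := fun c => rfl
  refine ⟨φ, ?_, ?_⟩
  · rw [injective_iff_map_eq_zero]
    intro c hc
    rw [hφ] at hc
    have h0 : c 0 = 0 := by
      have := congrArg (fun a : V => E a) hc
      simp only [map_add, map_smul, hEw, hEWw, smul_zero, add_zero, map_zero] at this
      rcases smul_eq_zero.mp this with h | h
      · exact h
      · exact absurd h hw₀
    have h1 : c 1 = 0 := by
      have := congrArg (fun a : V => U a) hc
      simp only [map_add, map_smul, hUw, hUWw, smul_zero, zero_add, map_zero] at this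
      rcases smul_eq_zero.mp this with h | h
      · exact h
      · exact absurd h hw₀
    funext i
    fin_cases i
    · exact h0
    · exact h1
  · intro γ c
    rw [hφ, hφ, map_add, map_smul, map_smul, hγw, hγWw]
    simp only [Matrix.mulVec, dotProduct, Fin.sum_univ_two]
    module

/-- **Boston–Lenstra–Ribet**, span form. -/
theorem blr_embed_of_span [Nontrivial V]
    (hspan : Submodule.span k (Set.range fun γ : Γ => (ρ γ : Matrix (Fin 2) (Fin 2) k)) = ⊤)
    (hCH : ∀ γ : Γ, σ γ * σ γ - (ρ γ : Matrix (Fin 2) (Fin 2) k).trace • σ γ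
      + (ρ γ : Matrix (Fin 2) (Fin 2) k).det • (1 : Module.End k V) = 0) :
    ∃ φ : (Fin 2 → k) →ₗ[k] V, Function.Injective φ ∧
      ∀ (γ : Γ) (c : Fin 2 → k),
        φ ((ρ γ : Matrix (Fin 2) (Fin 2) k).mulVec c) = σ γ (φ c) :=
  blr_embed ρ σ (blrRho_surjective ρ hspan) hCH

/-- `k[Γ] → M₂(k)` is onto if some `ρ c` is `diag(a, b)`, `a ≠ b`, and neither coordinate axis
is stable. -/
theorem blrRho_surjective_of_diag (c γ δ : Γ) (a b : k) (hab : a ≠ b)
    (hc : (ρ c : Matrix (Fin 2) (Fin 2) k) = !![a, 0; 0, b])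
    (hγ : (ρ γ : Matrix (Fin 2) (Fin 2) k) 1 0 ≠ 0)
    (hδ : (ρ δ : Matrix (Fin 2) (Fin 2) k) 0 1 ≠ 0) :
    Function.Surjective (blrRho ρ) := by
  have hmem : ∀ g : Γ, (ρ g : Matrix (Fin 2) (Fin 2) k) ∈ (blrRho ρ).range :=
    fun g => ⟨.of k Γ g, blrRho_of ρ g⟩
  have htop := blr_subalgebra_eq_top (blrRho ρ).range a b hab (hc ▸ hmem c) _ (hmem γ) hγ _
    (hmem δ) hδ
  intro M
  have hM : M ∈ (blrRho ρ).range := by
    rw [htop]
    exact Algebra.mem_top
  exact hM

end Main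

end Fermat.Agent.R38
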