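/-
Row 38 (S44), block G, seat G2/G3b (helper54): Boston–Lenstra–Ribet, basis-free form.

`W` a plane over `k` with a representation `ρW` of `Γ`, irreducible, and some `ρW c` with an
eigenbasis `e₁, e₂` for two distinct eigenvalues (e.g. `c` an involution of determinant `-1`,
`2 ≠ 0`).  `σ` a representation of `Γ` on `V ≠ 0` such that every `γ` satisfies
`σ γ ^ 2 - tr(ρW γ) σ γ + det(ρW γ) = 0`.  Then there is an injective equivariant linear map
`W → V` (`blr_embed_free`).

* `blr_embed_free` : with an eigenbasis;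
* `blr_embed_odd` : for an involution `ρW c` of determinant `-1`, `finrank W = 2`, `2 ≠ 0`.
-/
import Fermat.Agent.R38.G.BLR
import Fermat.Agent.S59.AbsIrr

set_option autoImplicit false

namespace Fermat.Agent.R38

open Matrix

section Free

variable {k : Type*} [Field k] {Γ : Type*} [Group Γ] {W : Type*} [AddCommGroup W] [Module k W]
  {V : Type*} [AddCommGroup V] [Module k V]

/-- Eigenvectors for distinct eigenvalues are linearly independent. -/
lemma blr_linearIndependent (A : Module.End k W) (e₁ e₂ : W) (he₁ : e₁ ≠ 0) (he₂ : e₂ ≠ 0)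
    (a b : k) (hab : a ≠ b) (h₁ : A e₁ = a • e₁) (h₂ : A e₂ = b • e₂) :
    LinearIndependent k ![e₁, e₂] := by
  rw [LinearIndependent.pair_iff]
  intro x y hxy
  have h := congrArg (fun w => A w - a • w) hxy
  simp only [map_add, map_smul, h₁, h₂, map_zero, smul_zero, sub_zero] at h
  have h3 : (y * (b - a)) • e₂ = 0 := by
    rw [← h]
    module
  have hy : y = 0 := by
    rcases smul_eq_zero.mp h3 with h4 | h4
    · rcases mul_eq_zero.mp h4 with h5 | h5
      · exact h5
      · exact absurd (sub_eq_zero.mp h5).symm hab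
    · exact absurd h4 he₂
  rw [hy, zero_smul, add_zero] at hxy
  rcases smul_eq_zero.mp hxy with h4 | h4
  · exact ⟨h4, hy⟩
  · exact absurd h4 he₁

/-- **Boston–Lenstra–Ribet**, basis-free form, with an eigenbasis. -/
theorem blr_embed_free [Nontrivial V] (ρW : Representation k Γ W) (σ : Representation k Γ V)
    (e₁ e₂ : W) (he₁ : e₁ ≠ 0) (he₂ : e₂ ≠ 0)
    (hspan : ∀ w : W, ∃ x y : k, w = x • e₁ + y • e₂)
    (c : Γ) (a b : k) (hab : a ≠ b) (hc₁ : ρW c e₁ = a • e₁) (hc₂ : ρW c e₂ = b • e₂)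
    (hirr : ∀ N : Submodule k W, (∀ (γ : Γ), ∀ w ∈ N, ρW γ w ∈ N) → N = ⊥ ∨ N = ⊤)
    (hCH : ∀ γ : Γ, σ γ * σ γ - LinearMap.trace k W (ρW γ) • σ γ
      + LinearMap.det (ρW γ) • (1 : Module.End k V) = 0) :
    ∃ φ : W →ₗ[k] V, Function.Injective φ ∧ ∀ (γ : Γ) (w : W), φ (ρW γ w) = σ γ (φ w) := by
  classical
  -- the eigenbasis
  have hli := blr_linearIndependent (ρW c) e₁ e₂ he₁ he₂ a b hab hc₁ hc₂
  have htop : ⊤ ≤ Submodule.span k (Set.range ![e₁, e₂]) := by
    intro w _
    obtain ⟨x, y, rfl⟩ := hspan w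
    refine Submodule.add_mem _ (Submodule.smul_mem _ _ (Submodule.subset_span ⟨0, rfl⟩))
      (Submodule.smul_mem _ _ (Submodule.subset_span ⟨1, rfl⟩))
  let B : Module.Basis (Fin 2) k W := Module.Basis.mk hli htop
  have hB0 : B 0 = e₁ := by
    show Module.Basis.mk hli htop 0 = e₁
    rw [Module.Basis.mk_apply]
    rfl
  have hB1 : B 1 = e₂ := by
    show Module.Basis.mk hli htop 1 = e₂
    rw [Module.Basis.mk_apply]
    rfl
  -- the matrix representation
  let T : Module.End k W →* Matrix (Fin 2) (Fin 2) k :=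
    ((LinearMap.toMatrixAlgEquiv B : Module.End k W ≃ₐ[k] Matrix (Fin 2) (Fin 2) k) :
      Module.End k W →ₐ[k] Matrix (Fin 2) (Fin 2) k)
  let ρ : Γ →* GL (Fin 2) k := (Units.map T).comp ρW.asGroupHom
  have hρ : ∀ γ : Γ, (ρ γ : Matrix (Fin 2) (Fin 2) k) = LinearMap.toMatrix B B (ρW γ) :=
    fun γ => rfl
  have hentry : ∀ (γ : Γ) (i j : Fin 2),
      (ρ γ : Matrix (Fin 2) (Fin 2) k) i j = B.repr (ρW γ (B j)) i := by
    intro γ i j
    rw [hρ, LinearMap.toMatrix_apply]
  have hexp : ∀ (γ : Γ) (j : Fin 2), ρW γ (B j) =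
      (ρ γ : Matrix (Fin 2) (Fin 2) k) 0 j • e₁ + (ρ γ : Matrix (Fin 2) (Fin 2) k) 1 j • e₂ := by
    intro γ j
    have h := B.sum_repr (ρW γ (B j))
    rw [Fin.sum_univ_two, hB0, hB1] at h
    rw [hentry, hentry]
    exact h.symm
  have hr10 : ∀ x y : k, B.repr (x • e₁ + y • e₂) 1 = y := by
    intro x y
    rw [← hB0, ← hB1, map_add, map_smul, map_smul, Module.Basis.repr_self, Module.Basis.repr_self]
    simp
  have hr00 : ∀ x y : k, B.repr (x • e₁ + y • e₂) 0 = x := by
    intro x y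
    rw [← hB0, ← hB1, map_add, map_smul, map_smul, Module.Basis.repr_self, Module.Basis.repr_self]
    simp
  -- `ρ c` is diagonal
  have hc : (ρ c : Matrix (Fin 2) (Fin 2) k) = !![a, 0; 0, b] := by
    ext i j
    rw [hentry]
    fin_cases i <;> fin_cases j
    · show B.repr (ρW c (B 0)) 0 = a
      rw [hB0, hc₁]
      have := hr00 a 0
      rwa [zero_smul, add_zero] at this
    · show B.repr (ρW c (B 1)) 0 = 0
      rw [hB1, hc₂]
      have := hr00 0 b
      rwa [zero_smul, zero_add] at this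
    · show B.repr (ρW c (B 0)) 1 = 0
      rw [hB0, hc₁]
      have := hr10 a 0
      rwa [zero_smul, add_zero] at this
    · show B.repr (ρW c (B 1)) 1 = b
      rw [hB1, hc₂]
      have := hr10 0 b
      rwa [zero_smul, zero_add] at this
  -- no stable axis
  have hne : e₂ ∉ Submodule.span k {e₁} := by
    intro h
    obtain ⟨x, hx⟩ := Submodule.mem_span_singleton.mp h
    have h0 := (LinearIndependent.pair_iff.mp hli) x (-1) (by rw [hx]; module)
    exact one_ne_zero (neg_eq_zero.mp h0.2)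
  have hne' : e₁ ∉ Submodule.span k {e₂} := by
    intro h
    obtain ⟨x, hx⟩ := Submodule.mem_span_singleton.mp h
    have h0 := (LinearIndependent.pair_iff.mp hli) (-1) x (by rw [hx]; module)
    exact one_ne_zero (neg_eq_zero.mp h0.1)
  obtain ⟨γ, hγ⟩ : ∃ γ : Γ, (ρ γ : Matrix (Fin 2) (Fin 2) k) 1 0 ≠ 0 := by
    by_contra hno
    push Not at hno
    rcases hirr (Submodule.span k {e₁}) (fun γ w hw => by
      obtain ⟨x, rfl⟩ := Submodule.mem_span_singleton.mp hw
      rw [map_smul]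
      refine Submodule.smul_mem _ _ ?_
      have h := hexp γ 0
      rw [hB0, hno γ, zero_smul, add_zero] at h
      rw [h]
      exact Submodule.smul_mem _ _ (Submodule.mem_span_singleton_self _)) with h | h
    · exact he₁ ((Submodule.span_singleton_eq_bot).mp h)
    · exact hne (h ▸ Submodule.mem_top)
  obtain ⟨δ, hδ⟩ : ∃ δ : Γ, (ρ δ : Matrix (Fin 2) (Fin 2) k) 0 1 ≠ 0 := by
    by_contra hno
    push Not at hno
    rcases hirr (Submodule.span k {e₂}) (fun γ w hw => by
      obtain ⟨x, rfl⟩ := Submodule.mem_span_singleton.mp hw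
      rw [map_smul]
      refine Submodule.smul_mem _ _ ?_
      have h := hexp γ 1
      rw [hB1, hno γ, zero_smul, zero_add] at h
      rw [h]
      exact Submodule.smul_mem _ _ (Submodule.mem_span_singleton_self _)) with h | h
    · exact he₂ ((Submodule.span_singleton_eq_bot).mp h)
    · exact hne' (h ▸ Submodule.mem_top)
  have hsurj := blrRho_surjective_of_diag ρ c γ δ a b hab hc hγ hδ
  -- Cayley–Hamilton in matrix form
  have hCH' : ∀ γ : Γ, σ γ * σ γ - (ρ γ : Matrix (Fin 2) (Fin 2) k).trace • σ γ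
      + (ρ γ : Matrix (Fin 2) (Fin 2) k).det • (1 : Module.End k V) = 0 := by
    intro γ
    have h1 : (ρ γ : Matrix (Fin 2) (Fin 2) k).trace = LinearMap.trace k W (ρW γ) := by
      rw [hρ, LinearMap.trace_eq_matrix_trace k B]
    have h2 : (ρ γ : Matrix (Fin 2) (Fin 2) k).det = LinearMap.det (ρW γ) := by
      rw [hρ, LinearMap.det_toMatrix]
    rw [h1, h2]
    exact hCH γ
  obtain ⟨φ₀, hφinj, hφeq⟩ := blr_embed ρ σ hsurj hCH'
  refine ⟨φ₀.comp (B.equivFun : W →ₗ[k] (Fin 2 → k)), ?_, ?_⟩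
  · exact hφinj.comp B.equivFun.injective
  · intro γ w
    show φ₀ (B.equivFun (ρW γ w)) = σ γ (φ₀ (B.equivFun w))
    rw [← hφeq, hρ]
    congr 1
    have := LinearMap.toMatrix_mulVec_repr B B (ρW γ) w
    exact this.symm

end Free

section Odd

variable {k : Type} [Field k] {Γ : Type*} [Group Γ] {W : Type} [AddCommGroup W] [Module k W]
  {V : Type*} [AddCommGroup V] [Module k V]

/-- **Boston–Lenstra–Ribet** for an irreducible odd plane. -/
theorem blr_embed_odd [Nontrivial V] (h2 : (2 : k) ≠ 0) (hW : Module.finrank k W = 2)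
    (ρW : Representation k Γ W) (σ : Representation k Γ V)
    (c : Γ) (hcc : c * c = 1) (hdet : LinearMap.det (ρW c) = -1)
    (hirr : ∀ N : Submodule k W, (∀ (γ : Γ), ∀ w ∈ N, ρW γ w ∈ N) → N = ⊥ ∨ N = ⊤)
    (hCH : ∀ γ : Γ, σ γ * σ γ - LinearMap.trace k W (ρW γ) • σ γ
      + LinearMap.det (ρW γ) • (1 : Module.End k V) = 0) :
    ∃ φ : W →ₗ[k] V, Function.Injective φ ∧ ∀ (γ : Γ) (w : W), φ (ρW γ w) = σ γ (φ w) := by
  have hA : ρW c * ρW c = 1 := by rw [← map_mul, hcc, map_one]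
  obtain ⟨e₁, e₂, he₁, he₂, h₁, h₂, hspan⟩ :=
    Fermat.Agent.S59.absIrr_eigenbasis h2 hW (ρW c) hA hdet
  have h11 : (1 : k) ≠ -1 := by
    intro h
    apply h2
    have : (2 : k) = 1 + 1 := by norm_num
    rw [this]
    nth_rewrite 2 [h]
    ring
  exact blr_embed_free ρW σ e₁ e₂ he₁ he₂ hspan c 1 (-1) h11 (by rw [h₁, one_smul])
    (by rw [h₂, neg_smul, one_smul]) hirr hCH

end Odd

end Fermat.Agent.R38
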