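/-
Row 38 (S44), block G, split of G1 (helper13).  Pure linear algebra, Mathlib only.

DESCENT OF EIGENVECTORS.  `R` a commutative ring, `k` an `R`-algebra which is free as an `R`-module
(e.g. a field extension of `𝔽_p`), `V` an `R`-module with operators `T i : V →ₗ[R] V` and "killing"
maps `U j : V →ₗ[R] V'`.  If `0 ≠ x ∈ k ⊗ V` satisfies `(1 ⊗ T i) x = a i • x` with `a i ∈ R` and
`(1 ⊗ U j) x = 0`, then there is `0 ≠ y ∈ V` with `T i y = a i • y`, `U j y = 0`.
(Take a coordinate of `x` with respect to an `R`-basis of `k`.)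
-/
import Mathlib

set_option autoImplicit false

noncomputable section

namespace Fermat.Agent.R38

open scoped TensorProduct

section Coord

variable {R : Type*} [CommRing R] {k : Type*} [CommRing k] [Algebra R k]
variable {V : Type*} [AddCommGroup V] [Module R V]
variable {V' : Type*} [AddCommGroup V'] [Module R V']

/-- The coordinate of `x ∈ k ⊗ V` at an `R`-linear form `c` of `k`. -/
def deCoord (c : k →ₗ[R] R) : k ⊗[R] V →ₗ[R] V :=
  (TensorProduct.lid R V).toLinearMap ∘ₗ c.rTensor V

@[simp] theorem deCoord_tmul (c : k →ₗ[R] R) (z : k) (v : V) :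
    deCoord c (z ⊗ₜ[R] v) = c z • v := by
  simp [deCoord]

/-- coordinates commute with `1 ⊗ T`. -/
theorem deCoord_baseChange (c : k →ₗ[R] R) (T : V →ₗ[R] V') (x : k ⊗[R] V) :
    deCoord c (T.baseChange k x) = T (deCoord c x) := by
  induction x using TensorProduct.induction_on with
  | zero => simp
  | tmul z v => simp [LinearMap.baseChange_tmul]
  | add x y hx hy => simp only [map_add, hx, hy]

/-- coordinates commute with the `k`-scalars coming from `R`. -/
theorem deCoord_algebraMap_smul (c : k →ₗ[R] R) (a : R) (x : k ⊗[R] V) :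
    deCoord c (algebraMap R k a • x) = a • deCoord c x := by
  rw [algebraMap_smul, map_smul]

end Coord

section Main

variable {R : Type*} [CommRing R] {k : Type*} [CommRing k] [Algebra R k] [Module.Free R k]
variable {V : Type*} [AddCommGroup V] [Module R V]
variable {V' : Type*} [AddCommGroup V'] [Module R V']

/-- a nonzero element of `k ⊗ V` has a nonzero coordinate. -/
theorem exists_deCoord_ne_zero {x : k ⊗[R] V} (hx : x ≠ 0) :
    ∃ c : k →ₗ[R] R, deCoord c x ≠ 0 := by
  classical
  let ℬ := Module.Free.chooseBasis R k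
  by_contra hcon
  simp only [not_exists, not_not] at hcon
  apply hx
  apply (TensorProduct.equivFinsuppOfBasisLeft (N := V) ℬ).injective
  rw [map_zero]
  ext i
  rw [TensorProduct.equivFinsuppOfBasisLeft_apply, Finsupp.zero_apply]
  exact hcon (ℬ.coord i)

/-- **Descent of eigenvectors** (`R`-scalar form). -/
theorem exists_eigen_of_baseChange {ι κ : Type*} (T : ι → V →ₗ[R] V) (a : ι → R)
    (U : κ → V →ₗ[R] V') {x : k ⊗[R] V} (hx : x ≠ 0)
    (hT : ∀ i, (T i).baseChange k x = a i • x)
    (hU : ∀ j, (U j).baseChange k x = 0) :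
    ∃ y : V, y ≠ 0 ∧ (∀ i, T i y = a i • y) ∧ ∀ j, U j y = 0 := by
  obtain ⟨c, hc⟩ := exists_deCoord_ne_zero hx
  refine ⟨deCoord c x, hc, fun i => ?_, fun j => ?_⟩
  · rw [← deCoord_baseChange, hT i, map_smul]
  · rw [← deCoord_baseChange, hU j, map_zero]

/-- **Descent of eigenvectors** (`k`-scalar form: the eigenvalues are `algebraMap R k (a i)`). -/
theorem exists_eigen_of_baseChange' {ι κ : Type*} (T : ι → V →ₗ[R] V) (a : ι → R)
    (U : κ → V →ₗ[R] V') {x : k ⊗[R] V} (hx : x ≠ 0)
    (hT : ∀ i, (T i).baseChange k x = algebraMap R k (a i) • x)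
    (hU : ∀ j, (U j).baseChange k x = 0) :
    ∃ y : V, y ≠ 0 ∧ (∀ i, T i y = a i • y) ∧ ∀ j, U j y = 0 :=
  exists_eigen_of_baseChange T a U hx (fun i => by rw [hT i, algebraMap_smul]) hU

/-- Additive-group form for `R = ZMod p`-spaces given as `ZMod p`-modules: the same with one
operator family only. -/
theorem exists_eigen_of_baseChange_single {ι : Type*} (T : ι → V →ₗ[R] V) (a : ι → R)
    {x : k ⊗[R] V} (hx : x ≠ 0) (hT : ∀ i, (T i).baseChange k x = a i • x) :
    ∃ y : V, y ≠ 0 ∧ ∀ i, T i y = a i • y := by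
  obtain ⟨y, hy, h1, -⟩ :=
    exists_eigen_of_baseChange (V' := V) (κ := Empty) T a (fun j => j.elim) hx hT
      (fun j => j.elim)
  exact ⟨y, hy, h1⟩

end Main

end Fermat.Agent.R38
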