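/-
Row 38 (S44), block G, seat G3b (helper54): Boston–Lenstra–Ribet for `E[p]`.

`W / ℤ` with `Δ ≠ 0`, `p` an odd prime, `E = W_ℚ`, `E[p] = E[p](ℚ̄)` with the Prelude's Galois action
(`galoisRepModuleEnd`), irreducible (`GaloisRepIsIrreducible`).  `σ` a representation of `G_ℚ` on a
nonzero `𝔽_p`-vector space `V` with
  `σ g ^ 2 - tr(g | E[p]) σ g + det(g | E[p]) = 0`   for every `g`.
Then `E[p]` embeds in `V`, `G_ℚ`-equivariantly (`blr_embed_torsion`).

* `finrank_torsionBy` : `dim E[p] = 2`;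
* `det_complexConjugation_torsionBy` : complex conjugation has determinant `-1` on `E[p]`;
* `blr_embed_torsion` : the embedding.
-/
import Fermat.Agent.R38.G.BLRFree
import Fermat.Agent.Lib.FrobTrace.DetCycloEll
import Fermat.Agent.Lib.Torsion.Card

set_option autoImplicit false

open WeierstrassCurve WeierstrassCurve.Affine WeierstrassCurve.Affine.Point

namespace Fermat.Agent.R38

open Fermat.Agent.Cyclo (Qb GQ)

variable (W : WeierstrassCurve ℤ) (hΔ : W.Δ ≠ 0) (p : ℕ) [Fact p.Prime] [DecidableEq Qb]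

include hΔ

/-- `E[p]` has `p²` elements. -/
theorem card_torsionBy_Qb :
    Nat.card (Submodule.torsionBy ℤ ((W.map (Int.castRingHom ℚ))⁄Qb).Point (p : ℕ)) = p ^ 2 := by
  have hΔ' : ((W.map (Int.castRingHom ℚ))⁄Qb).Δ ≠ 0 := by
    change ((W.map (Int.castRingHom ℚ)).map (algebraMap ℚ Qb)).Δ ≠ 0
    rw [WeierstrassCurve.map_Δ, WeierstrassCurve.map_Δ]
    simpa using hΔ
  exact Fermat.Agent.Torsion.card_torsionBy hΔ' (n := p) (Fact.out : p.Prime).one_le

/-- `E[p]` is a plane over `𝔽_p`. -/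
theorem finrank_torsionBy :
    Module.finrank (ZMod p)
      (Submodule.torsionBy ℤ ((W.map (Int.castRingHom ℚ))⁄Qb).Point (p : ℕ)) = 2 := by
  have hp : p.Prime := Fact.out
  have hcard := card_torsionBy_Qb W hΔ p
  have : Finite (Submodule.torsionBy ℤ ((W.map (Int.castRingHom ℚ))⁄Qb).Point (p : ℕ)) :=
    Nat.finite_of_card_ne_zero (by rw [hcard]; exact pow_ne_zero _ hp.ne_zero)
  have h := Module.natCard_eq_pow_finrank (K := ZMod p)
    (V := Submodule.torsionBy ℤ ((W.map (Int.castRingHom ℚ))⁄Qb).Point (p : ℕ))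
  rw [Nat.card_zmod, hcard] at h
  exact (Nat.pow_right_injective hp.two_le h).symm

/-- Complex conjugation has determinant `-1` on `E[p]`. -/
theorem det_complexConjugation_torsionBy :
    LinearMap.det (galoisRepModuleEnd ℚ (K := Qb) (W.map (Int.castRingHom ℚ)) p
      complexConjugation) = -1 := by
  have key : ∀ n : ℕ, n = p →
      LinearMap.det (galoisRepModuleEnd ℚ (K := Qb) (W.map (Int.castRingHom ℚ)) n
        complexConjugation) = -1 →
      LinearMap.det (galoisRepModuleEnd ℚ (K := Qb) (W.map (Int.castRingHom ℚ)) p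
        complexConjugation) = -1 := by
    intro n hn h
    subst hn
    exact h
  exact key (p ^ 1) (pow_one p)
    (Fermat.Agent.FrobTrace.galois_det_complexConjugation W hΔ (p := p) 1)

/-- **Boston–Lenstra–Ribet for `E[p]`.** -/
theorem blr_embed_torsion (hp2 : p ≠ 2)
    (hirr : GaloisRepIsIrreducible (K := Qb) ℚ (W.map (Int.castRingHom ℚ)).toAffine p)
    {V : Type*} [AddCommGroup V] [Module (ZMod p) V] [Nontrivial V]
    (σ : Representation (ZMod p) GQ V)
    (hCH : ∀ g : GQ, σ g * σ g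
      - galoisTrace ℚ (K := Qb) (W.map (Int.castRingHom ℚ)).toAffine p g • σ g
      + LinearMap.det (galoisRepModuleEnd ℚ (K := Qb) (W.map (Int.castRingHom ℚ)) p g)
          • (1 : Module.End (ZMod p) V) = 0) :
    ∃ φ : Submodule.torsionBy ℤ ((W.map (Int.castRingHom ℚ))⁄Qb).Point (p : ℕ) →ₗ[ZMod p] V,
      Function.Injective φ ∧
      ∀ (g : GQ) (x : Submodule.torsionBy ℤ ((W.map (Int.castRingHom ℚ))⁄Qb).Point (p : ℕ)),
        φ (g • x) = σ g (φ x) := by
  have hp : p.Prime := Fact.out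
  have h2 : (2 : ZMod p) ≠ 0 := by
    intro h
    have h' : ((2 : ℕ) : ZMod p) = 0 := by exact_mod_cast h
    rw [ZMod.natCast_eq_zero_iff] at h'
    exact hp2 ((Nat.prime_dvd_prime_iff_eq hp Nat.prime_two).mp h')
  have hcc : (complexConjugation : GQ) * complexConjugation = 1 := complexConjugation_mul_self
  exact blr_embed_odd h2 (finrank_torsionBy W hΔ p)
    (galoisRepModuleEnd ℚ (K := Qb) (W.map (Int.castRingHom ℚ)).toAffine p) σ
    complexConjugation hcc (det_complexConjugation_torsionBy W hΔ p)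
    (fun N hN => hirr.2 N (fun g x hx => hN g x hx)) hCH

end Fermat.Agent.R38
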