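/-
Row 38 (S44), block G, core of seat G3c (helper54): the BLR embedding in ADDITIVE form.

`J` an abelian group with an action of `G_ℚ` (e.g. `J = J₀(N)(ℚ̄)`), `V ≤ J` a subgroup which is
`p`-torsion, Galois-stable and nonzero, on which every `g ∈ G_ℚ` satisfies the Frobenius relation
  `g² y − t_g · g y + d_g · y = 0`     (`t_g, d_g ∈ ℤ` lifts of `tr(g | E[p])`, `det(g | E[p])`).
If `E[p]` is irreducible (`p` odd) there is an injective Galois-equivariant homomorphism
`θ : E[p] → J` with image in `V`.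

* `blr_embed_addSubgroup` : for `E = W_ℚ`, `W / ℤ` with `Δ ≠ 0`;
* `torsEquivOfModel`, `galoisTrace_eq_of_model`, `galoisDet_eq_of_model`,
  `galoisRepIsIrreducible_of_model` : transport along a change of variables `C • E = W_ℚ`;
* `blr_embed_addSubgroup_of_model` : for any `E / ℚ` with integral model `W`
  (relation stated with the trace/determinant of `W_ℚ`);
* `blr_embed_addSubgroup_of_model'` : the same with the trace/determinant of `E`.
-/
import Fermat.Agent.R38.G.Odd
import Fermat.Agent.E.S12.Quot.VcSurj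

set_option autoImplicit false
set_option linter.style.haveILetI false

open WeierstrassCurve WeierstrassCurve.Affine WeierstrassCurve.Affine.Point

namespace Fermat.Agent.R38

open Fermat.Agent.Cyclo (Qb GQ)

section abstract

variable {G : Type*} [Monoid G] {J : Type*} [AddCommGroup J] [DistribMulAction G J]
  (p : ℕ) (V : AddSubgroup J)

/-- The `𝔽_p`-structure of a `p`-torsion subgroup. -/
@[reducible] def zmodModuleOfTorsion (hVp : ∀ y ∈ V, p • y = 0) : Module (ZMod p) V :=
  AddCommGroup.zmodModule (n := p) (G := V) fun y => Subtype.ext (by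
    rw [AddSubgroup.coe_nsmul, AddSubgroup.coe_zero]
    exact hVp y.1 y.2)

/-- The action on a stable `p`-torsion subgroup, as a representation over `𝔽_p`. -/
def stableRep (hVp : ∀ y ∈ V, p • y = 0) (hVg : ∀ g : G, ∀ y ∈ V, g • y ∈ V) :
    letI := zmodModuleOfTorsion p V hVp
    Representation (ZMod p) G V :=
  letI := zmodModuleOfTorsion p V hVp
  { toFun := fun g => AddMonoidHom.toZModLinearMap p
      { toFun := fun y => ⟨g • y.1, hVg g y.1 y.2⟩
        map_zero' := Subtype.ext (smul_zero g)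
        map_add' := fun y z => Subtype.ext (smul_add g y.1 z.1) }
    map_one' := by
      apply LinearMap.ext
      intro y
      exact Subtype.ext (one_smul G y.1)
    map_mul' := by
      intro g h
      apply LinearMap.ext
      intro y
      exact Subtype.ext (mul_smul g h y.1) }

theorem stableRep_apply_coe (hVp : ∀ y ∈ V, p • y = 0) (hVg : ∀ g : G, ∀ y ∈ V, g • y ∈ V)
    (g : G) (y : V) :
    letI := zmodModuleOfTorsion p V hVp
    ((stableRep p V hVp hVg g y : V) : J) = g • (y : J) := rfl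

end abstract

section model

variable (W : WeierstrassCurve ℤ) (hΔ : W.Δ ≠ 0) (p : ℕ) [Fact p.Prime] [DecidableEq Qb]

include hΔ

/-- **BLR, additive form**, for `E = W_ℚ`. -/
theorem blr_embed_addSubgroup (hp2 : p ≠ 2)
    (hirr : GaloisRepIsIrreducible (K := Qb) ℚ (W.map (Int.castRingHom ℚ)).toAffine p)
    {J : Type*} [AddCommGroup J] [DistribMulAction GQ J] (V : AddSubgroup J)
    (hVp : ∀ y ∈ V, p • y = 0) (hVg : ∀ g : GQ, ∀ y ∈ V, g • y ∈ V)
    (hVne : ∃ y ∈ V, y ≠ 0)
    (hCH : ∀ g : GQ, ∃ t d : ℤ,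
      (t : ZMod p) = galoisTrace ℚ (K := Qb) (W.map (Int.castRingHom ℚ)).toAffine p g ∧
      (d : ZMod p) =
        LinearMap.det (galoisRepModuleEnd ℚ (K := Qb) (W.map (Int.castRingHom ℚ)) p g) ∧
      ∀ y ∈ V, g • g • y - t • g • y + d • y = 0) :
    ∃ θ : Submodule.torsionBy ℤ ((W.map (Int.castRingHom ℚ))⁄Qb).Point (p : ℕ) →+ J,
      Function.Injective θ ∧
      (∀ (g : GQ) (x : Submodule.torsionBy ℤ ((W.map (Int.castRingHom ℚ))⁄Qb).Point (p : ℕ)),
        θ (g • x) = g • θ x) ∧
      ∀ x, θ x ∈ V := by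
  letI := zmodModuleOfTorsion p V hVp
  haveI : Nontrivial V := by
    obtain ⟨y, hy, hy0⟩ := hVne
    exact ⟨⟨⟨y, hy⟩, 0, fun h => hy0 (congrArg Subtype.val h)⟩⟩
  obtain ⟨φ, hφinj, hφ⟩ := blr_embed_torsion W hΔ p hp2 hirr (stableRep p V hVp hVg) (by
    intro g
    obtain ⟨t, d, ht, hd, hrel⟩ := hCH g
    apply LinearMap.ext
    intro y
    rw [← ht, ← hd]
    simp only [LinearMap.add_apply, LinearMap.sub_apply, LinearMap.smul_apply,
      Module.End.mul_apply, Module.End.one_apply, LinearMap.zero_apply,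
      Int.cast_smul_eq_zsmul]
    apply Subtype.ext
    simp only [AddSubgroup.coe_add, AddSubgroup.coe_sub, AddSubgroup.coe_zsmul,
      AddSubgroup.coe_zero]
    exact hrel y.1 y.2)
  refine ⟨V.subtype.comp φ.toAddMonoidHom, ?_, ?_, ?_⟩
  · exact V.subtype_injective.comp hφinj
  · intro g x
    change ((φ (g • x) : V) : J) = g • ((φ x : V) : J)
    rw [hφ g x]
    rfl
  · intro x
    exact (φ x).2

end model

section transport

variable (E : WeierstrassCurve ℚ) (W : WeierstrassCurve ℤ) (C : VariableChange ℚ)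
  (hC : C • E = W.map (Int.castRingHom ℚ)) (p : ℕ) [DecidableEq Qb]

include hC

/-- The change of variables on `p`-torsion points. -/
noncomputable def torsHomOfModel :
    Submodule.torsionBy ℤ (E⁄Qb).Point (p : ℕ) →+
      Submodule.torsionBy ℤ ((W.map (Int.castRingHom ℚ))⁄Qb).Point (p : ℕ) where
  toFun x := ⟨VarChange.vcHomBC (K := Qb) C hC x.1, by
    rw [Submodule.mem_torsionBy_iff, ← map_zsmul, (Submodule.mem_torsionBy_iff _ _).1 x.2,
      _root_.map_zero]⟩
  map_zero' := Subtype.ext (_root_.map_zero _)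
  map_add' x y := Subtype.ext (map_add _ _ _)

theorem torsHomOfModel_coe (x : Submodule.torsionBy ℤ (E⁄Qb).Point (p : ℕ)) :
    ((torsHomOfModel E W C hC p x :
      Submodule.torsionBy ℤ ((W.map (Int.castRingHom ℚ))⁄Qb).Point (p : ℕ)) :
        ((W.map (Int.castRingHom ℚ))⁄Qb).Point) = VarChange.vcHomBC (K := Qb) C hC x.1 := rfl

theorem torsHomOfModel_injective : Function.Injective (torsHomOfModel E W C hC p) := by
  intro x y h
  apply Subtype.ext
  exact VarChange.vcHomBC_injective (K := Qb) C hC (congrArg Subtype.val h)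

theorem torsHomOfModel_surjective : Function.Surjective (torsHomOfModel E W C hC p) := by
  intro y
  obtain ⟨x, hx⟩ := VarChange.vcHomBC_surjective (K := Qb) C hC y.1
  have hxp : x ∈ Submodule.torsionBy ℤ (E⁄Qb).Point (p : ℕ) := by
    rw [Submodule.mem_torsionBy_iff]
    apply VarChange.vcHomBC_injective (K := Qb) C hC
    rw [map_zsmul, hx, (Submodule.mem_torsionBy_iff _ _).1 y.2, _root_.map_zero]
  exact ⟨⟨x, hxp⟩, Subtype.ext hx⟩

theorem torsHomOfModel_smul (g : GQ) (x : Submodule.torsionBy ℤ (E⁄Qb).Point (p : ℕ)) :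
    torsHomOfModel E W C hC p (g • x) = g • torsHomOfModel E W C hC p x := by
  apply Subtype.ext
  exact VarChange.vcHomBC_map C hC g.toAlgHom x.1

/-- The Galois-equivariant isomorphism `E[p] ≃ W_ℚ[p]`. -/
noncomputable def torsEquivOfModel :
    Submodule.torsionBy ℤ (E⁄Qb).Point (p : ℕ) ≃ₗ[ZMod p]
      Submodule.torsionBy ℤ ((W.map (Int.castRingHom ℚ))⁄Qb).Point (p : ℕ) :=
  LinearEquiv.ofBijective ((torsHomOfModel E W C hC p).toZModLinearMap p)
    ⟨torsHomOfModel_injective E W C hC p, torsHomOfModel_surjective E W C hC p⟩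

theorem torsEquivOfModel_apply (x : Submodule.torsionBy ℤ (E⁄Qb).Point (p : ℕ)) :
    torsEquivOfModel E W C hC p x = torsHomOfModel E W C hC p x := rfl

theorem torsEquivOfModel_smul (g : GQ) (x : Submodule.torsionBy ℤ (E⁄Qb).Point (p : ℕ)) :
    torsEquivOfModel E W C hC p (g • x) = g • torsEquivOfModel E W C hC p x :=
  torsHomOfModel_smul E W C hC p g x

theorem torsEquivOfModel_conj (g : GQ) :
    (torsEquivOfModel E W C hC p).conj (galoisRepModuleEnd ℚ (K := Qb) E p g) =
      galoisRepModuleEnd ℚ (K := Qb) (W.map (Int.castRingHom ℚ)) p g := by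
  apply LinearMap.ext
  intro y
  rw [LinearEquiv.conj_apply_apply, galoisRepModuleEnd_apply, galoisRepModuleEnd_apply,
    torsEquivOfModel_smul, LinearEquiv.apply_symm_apply]

/-- The trace of `g` on `E[p]` does not depend on the model. -/
theorem galoisTrace_eq_of_model (g : GQ) :
    galoisTrace ℚ (K := Qb) E.toAffine p g =
      galoisTrace ℚ (K := Qb) (W.map (Int.castRingHom ℚ)).toAffine p g := by
  rw [galoisTrace_def, galoisTrace_def]
  change _ = LinearMap.trace (ZMod p) _
    (galoisRepModuleEnd ℚ (K := Qb) (W.map (Int.castRingHom ℚ)) p g)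
  rw [← torsEquivOfModel_conj E W C hC p g, LinearMap.trace_conj']

/-- The determinant of `g` on `E[p]` does not depend on the model. -/
theorem galoisDet_eq_of_model (g : GQ) :
    LinearMap.det (galoisRepModuleEnd ℚ (K := Qb) E p g) =
      LinearMap.det (galoisRepModuleEnd ℚ (K := Qb) (W.map (Int.castRingHom ℚ)) p g) := by
  rw [← torsEquivOfModel_conj E W C hC p g]
  exact (LinearMap.det_conj _ (torsEquivOfModel E W C hC p)).symm

/-- Irreducibility of `E[p]` does not depend on the model. -/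
theorem galoisRepIsIrreducible_of_model
    (hirr : GaloisRepIsIrreducible (K := Qb) ℚ E.toAffine p) :
    GaloisRepIsIrreducible (K := Qb) ℚ (W.map (Int.castRingHom ℚ)).toAffine p := by
  obtain ⟨hnt, hN⟩ := hirr
  refine ⟨?_, ?_⟩
  · haveI := hnt
    exact (torsEquivOfModel E W C hC p).injective.nontrivial
  · intro N hNst
    have hst : IsGaloisStable (K := Qb) ℚ
        (N.comap (torsEquivOfModel E W C hC p).toLinearMap) := by
      intro g x hx
      rw [Submodule.mem_comap] at hx ⊢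
      change torsEquivOfModel E W C hC p (g • x) ∈ N
      rw [torsEquivOfModel_smul]
      exact hNst g _ hx
    rcases hN _ hst with h | h
    · left
      rw [eq_bot_iff]
      intro y hy
      have h1 : (torsEquivOfModel E W C hC p).symm y ∈
          N.comap (torsEquivOfModel E W C hC p).toLinearMap := by
        rw [Submodule.mem_comap]
        change torsEquivOfModel E W C hC p ((torsEquivOfModel E W C hC p).symm y) ∈ N
        rw [LinearEquiv.apply_symm_apply]
        exact hy
      rw [h, Submodule.mem_bot] at h1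
      rw [Submodule.mem_bot]
      have := congrArg (torsEquivOfModel E W C hC p) h1
      rwa [LinearEquiv.apply_symm_apply, _root_.map_zero] at this
    · right
      rw [eq_top_iff]
      intro y _
      have h1 : (torsEquivOfModel E W C hC p).symm y ∈
          N.comap (torsEquivOfModel E W C hC p).toLinearMap := by
        rw [h]
        exact Submodule.mem_top
      rw [Submodule.mem_comap] at h1
      change torsEquivOfModel E W C hC p ((torsEquivOfModel E W C hC p).symm y) ∈ N at h1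
      rwa [LinearEquiv.apply_symm_apply] at h1

end transport

section general

/-- An integral model of an elliptic curve has nonzero discriminant. -/
theorem delta_ne_zero_of_model (E : WeierstrassCurve ℚ) (W : WeierstrassCurve ℤ)
    [E.IsElliptic] (hW : W.IsIntegralModelOf E) : W.Δ ≠ 0 := by
  obtain ⟨C, hC⟩ := hW
  intro h0
  have h1 : (W.map (Int.castRingHom ℚ)).Δ = 0 := by
    rw [WeierstrassCurve.map_Δ, h0, _root_.map_zero]
  rw [← hC, WeierstrassCurve.variableChange_Δ] at h1
  have hE : E.Δ ≠ 0 := E.isUnit_Δ.ne_zero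
  rcases mul_eq_zero.1 h1 with h | h
  · exact pow_ne_zero _ (Units.ne_zero _) h
  · exact hE h

variable (E : WeierstrassCurve ℚ) (W : WeierstrassCurve ℤ) (p : ℕ) [Fact p.Prime]
  [DecidableEq Qb]

/-- **BLR, additive form**, for `E / ℚ` with integral model `W` (`Δ_W ≠ 0`); the relation is
stated with the trace and determinant of `g` on `W_ℚ[p]`. -/
theorem blr_embed_addSubgroup_of_model (hΔ : W.Δ ≠ 0) (hW : W.IsIntegralModelOf E) (hp2 : p ≠ 2)
    (hirr : GaloisRepIsIrreducible (K := Qb) ℚ E.toAffine p)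
    {J : Type*} [AddCommGroup J] [DistribMulAction GQ J] (V : AddSubgroup J)
    (hVp : ∀ y ∈ V, p • y = 0) (hVg : ∀ g : GQ, ∀ y ∈ V, g • y ∈ V)
    (hVne : ∃ y ∈ V, y ≠ 0)
    (hCH : ∀ g : GQ, ∃ t d : ℤ,
      (t : ZMod p) = galoisTrace ℚ (K := Qb) (W.map (Int.castRingHom ℚ)).toAffine p g ∧
      (d : ZMod p) =
        LinearMap.det (galoisRepModuleEnd ℚ (K := Qb) (W.map (Int.castRingHom ℚ)) p g) ∧
      ∀ y ∈ V, g • g • y - t • g • y + d • y = 0) :
    ∃ θ : Submodule.torsionBy ℤ (E⁄Qb).Point (p : ℕ) →+ J,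
      Function.Injective θ ∧
      (∀ (g : GQ) (x : Submodule.torsionBy ℤ (E⁄Qb).Point (p : ℕ)), θ (g • x) = g • θ x) ∧
      ∀ x, θ x ∈ V := by
  obtain ⟨C, hC⟩ := hW
  obtain ⟨θ, hinj, heq, hmem⟩ := blr_embed_addSubgroup W hΔ p hp2
    (galoisRepIsIrreducible_of_model E W C hC p hirr) V hVp hVg hVne hCH
  refine ⟨θ.comp (torsHomOfModel E W C hC p), ?_, ?_, ?_⟩
  · exact hinj.comp (torsHomOfModel_injective E W C hC p)
  · intro g x
    change θ (torsHomOfModel E W C hC p (g • x)) = g • θ (torsHomOfModel E W C hC p x)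
    rw [torsHomOfModel_smul, heq]
  · intro x
    exact hmem _

/-- The same with the relation required for ALL integer lifts of trace and determinant. -/
theorem blr_embed_addSubgroup_of_model_forall (hΔ : W.Δ ≠ 0) (hW : W.IsIntegralModelOf E)
    (hp2 : p ≠ 2)
    (hirr : GaloisRepIsIrreducible (K := Qb) ℚ E.toAffine p)
    {J : Type*} [AddCommGroup J] [DistribMulAction GQ J] (V : AddSubgroup J)
    (hVp : ∀ y ∈ V, p • y = 0) (hVg : ∀ g : GQ, ∀ y ∈ V, g • y ∈ V)
    (hVne : ∃ y ∈ V, y ≠ 0)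
    (hCH : ∀ (g : GQ) (t d : ℤ),
      (t : ZMod p) = galoisTrace ℚ (K := Qb) (W.map (Int.castRingHom ℚ)).toAffine p g →
      (d : ZMod p) =
        LinearMap.det (galoisRepModuleEnd ℚ (K := Qb) (W.map (Int.castRingHom ℚ)) p g) →
      ∀ y ∈ V, g • g • y - t • g • y + d • y = 0) :
    ∃ θ : Submodule.torsionBy ℤ (E⁄Qb).Point (p : ℕ) →+ J,
      Function.Injective θ ∧
      (∀ (g : GQ) (x : Submodule.torsionBy ℤ (E⁄Qb).Point (p : ℕ)), θ (g • x) = g • θ x) ∧
      ∀ x, θ x ∈ V := by
  refine blr_embed_addSubgroup_of_model E W p hΔ hW hp2 hirr V hVp hVg hVne ?_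
  intro g
  obtain ⟨t, ht⟩ := ZMod.intCast_surjective
    (galoisTrace ℚ (K := Qb) (W.map (Int.castRingHom ℚ)).toAffine p g)
  obtain ⟨d, hd⟩ := ZMod.intCast_surjective
    (LinearMap.det (galoisRepModuleEnd ℚ (K := Qb) (W.map (Int.castRingHom ℚ)) p g))
  exact ⟨t, d, ht, hd, hCH g t d ht hd⟩

/-- The same with the trace and determinant of `g` on `E[p]` itself. -/
theorem blr_embed_addSubgroup_of_model' (hΔ : W.Δ ≠ 0) (hW : W.IsIntegralModelOf E)
    (hp2 : p ≠ 2)
    (hirr : GaloisRepIsIrreducible (K := Qb) ℚ E.toAffine p)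
    {J : Type*} [AddCommGroup J] [DistribMulAction GQ J] (V : AddSubgroup J)
    (hVp : ∀ y ∈ V, p • y = 0) (hVg : ∀ g : GQ, ∀ y ∈ V, g • y ∈ V)
    (hVne : ∃ y ∈ V, y ≠ 0)
    (hCH : ∀ g : GQ, ∃ t d : ℤ,
      (t : ZMod p) = galoisTrace ℚ (K := Qb) E.toAffine p g ∧
      (d : ZMod p) = LinearMap.det (galoisRepModuleEnd ℚ (K := Qb) E p g) ∧
      ∀ y ∈ V, g • g • y - t • g • y + d • y = 0) :
    ∃ θ : Submodule.torsionBy ℤ (E⁄Qb).Point (p : ℕ) →+ J,
      Function.Injective θ ∧
      (∀ (g : GQ) (x : Submodule.torsionBy ℤ (E⁄Qb).Point (p : ℕ)), θ (g • x) = g • θ x) ∧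
      ∀ x, θ x ∈ V := by
  obtain ⟨C, hC⟩ := id hW
  refine blr_embed_addSubgroup_of_model E W p hΔ hW hp2 hirr V hVp hVg hVne ?_
  intro g
  obtain ⟨t, d, ht, hd, hrel⟩ := hCH g
  exact ⟨t, d, ht.trans (galoisTrace_eq_of_model E W C hC p g),
    hd.trans (galoisDet_eq_of_model E W C hC p g), hrel⟩

/-- **BLR, additive form, for an elliptic curve `E / ℚ` with integral model `W`** (the shape
consumed by block G: `FreyEmbedsIn E p V`). -/
theorem blr_embed_elliptic [E.IsElliptic] (hW : W.IsIntegralModelOf E) (hp2 : p ≠ 2)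
    (hirr : GaloisRepIsIrreducible (K := Qb) ℚ E.toAffine p)
    {J : Type*} [AddCommGroup J] [DistribMulAction GQ J] (V : AddSubgroup J)
    (hVp : ∀ y ∈ V, p • y = 0) (hVg : ∀ g : GQ, ∀ y ∈ V, g • y ∈ V)
    (hVne : ∃ y ∈ V, y ≠ 0)
    (hCH : ∀ g : GQ, ∃ t d : ℤ,
      (t : ZMod p) = galoisTrace ℚ (K := Qb) (W.map (Int.castRingHom ℚ)).toAffine p g ∧
      (d : ZMod p) =
        LinearMap.det (galoisRepModuleEnd ℚ (K := Qb) (W.map (Int.castRingHom ℚ)) p g) ∧
      ∀ y ∈ V, g • g • y - t • g • y + d • y = 0) :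
    ∃ θ : Submodule.torsionBy ℤ (E⁄Qb).Point (p : ℕ) →+ J,
      Function.Injective θ ∧
      (∀ (g : GQ) (x : Submodule.torsionBy ℤ (E⁄Qb).Point (p : ℕ)), θ (g • x) = g • θ x) ∧
      ∀ x, θ x ∈ V :=
  blr_embed_addSubgroup_of_model E W p (delta_ne_zero_of_model E W hW) hW hp2 hirr V hVp hVg
    hVne hCH

/-- The same with the relation for ALL integer lifts of trace and determinant. -/
theorem blr_embed_elliptic_forall [E.IsElliptic] (hW : W.IsIntegralModelOf E) (hp2 : p ≠ 2)
    (hirr : GaloisRepIsIrreducible (K := Qb) ℚ E.toAffine p)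
    {J : Type*} [AddCommGroup J] [DistribMulAction GQ J] (V : AddSubgroup J)
    (hVp : ∀ y ∈ V, p • y = 0) (hVg : ∀ g : GQ, ∀ y ∈ V, g • y ∈ V)
    (hVne : ∃ y ∈ V, y ≠ 0)
    (hCH : ∀ (g : GQ) (t d : ℤ),
      (t : ZMod p) = galoisTrace ℚ (K := Qb) (W.map (Int.castRingHom ℚ)).toAffine p g →
      (d : ZMod p) =
        LinearMap.det (galoisRepModuleEnd ℚ (K := Qb) (W.map (Int.castRingHom ℚ)) p g) →
      ∀ y ∈ V, g • g • y - t • g • y + d • y = 0) :
    ∃ θ : Submodule.torsionBy ℤ (E⁄Qb).Point (p : ℕ) →+ J,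
      Function.Injective θ ∧
      (∀ (g : GQ) (x : Submodule.torsionBy ℤ (E⁄Qb).Point (p : ℕ)), θ (g • x) = g • θ x) ∧
      ∀ x, θ x ∈ V :=
  blr_embed_addSubgroup_of_model_forall E W p (delta_ne_zero_of_model E W hW) hW hp2 hirr V
    hVp hVg hVne hCH

end general

end Fermat.Agent.R38
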