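/-
Row 38 (S44), block G, seat G3c core, part 2 (helper54): BLR with TWO integral models.

The spine wants the embedding on `E[p]` of the integral FREY model `W₀ = P.freyCurveInt`, while the
Frobenius relation comes with the trace and determinant of the model `W` of the modularity
hypothesis.  Both are integral models of the same `E / ℚ`, so trace, determinant and
irreducibility agree.

* `galoisTrace_eq_of_two_models`, `galoisDet_eq_of_two_models`;
* `blr_embed_two_models` : `V ≤ J` `p`-torsion, Galois-stable, nonzero, Frobenius relation on `V`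
  with ANY integer lifts of `tr, det` of `g` on `W_ℚ[p]`, `E[p]` irreducible
  ⟹ `∃ θ : W₀_ℚ[p] →+ J` injective, equivariant, with range in `V`;
* `blr_embed_frey` : the case `E = P.freyCurve`, `W₀ = P.freyCurveInt`.
-/
import Fermat.Agent.R38.G.EmbedAbs
import Fermat.Agent.Lib.Frey.Basic

set_option autoImplicit false
set_option linter.style.haveILetI false

open WeierstrassCurve WeierstrassCurve.Affine WeierstrassCurve.Affine.Point

namespace Fermat.Agent.R38

open Fermat.Agent.Cyclo (Qb GQ)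

section two

variable (E : WeierstrassCurve ℚ) (W₀ W : WeierstrassCurve ℤ) (p : ℕ) [DecidableEq Qb]

/-- The trace of `g` on `E[p]` is the same for two integral models. -/
theorem galoisTrace_eq_of_two_models (hW₀ : W₀.IsIntegralModelOf E) (hW : W.IsIntegralModelOf E)
    (g : GQ) :
    galoisTrace ℚ (K := Qb) (W₀.map (Int.castRingHom ℚ)).toAffine p g =
      galoisTrace ℚ (K := Qb) (W.map (Int.castRingHom ℚ)).toAffine p g := by
  obtain ⟨C₀, hC₀⟩ := hW₀
  obtain ⟨C, hC⟩ := hW
  rw [← galoisTrace_eq_of_model E W₀ C₀ hC₀ p g, galoisTrace_eq_of_model E W C hC p g]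

/-- The determinant of `g` on `E[p]` is the same for two integral models. -/
theorem galoisDet_eq_of_two_models (hW₀ : W₀.IsIntegralModelOf E) (hW : W.IsIntegralModelOf E)
    (g : GQ) :
    LinearMap.det (galoisRepModuleEnd ℚ (K := Qb) (W₀.map (Int.castRingHom ℚ)) p g) =
      LinearMap.det (galoisRepModuleEnd ℚ (K := Qb) (W.map (Int.castRingHom ℚ)) p g) := by
  obtain ⟨C₀, hC₀⟩ := hW₀
  obtain ⟨C, hC⟩ := hW
  rw [← galoisDet_eq_of_model E W₀ C₀ hC₀ p g, galoisDet_eq_of_model E W C hC p g]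

variable [Fact p.Prime]

/-- **BLR, additive form, two integral models.** -/
theorem blr_embed_two_models (hΔ₀ : W₀.Δ ≠ 0) (hW₀ : W₀.IsIntegralModelOf E)
    (hW : W.IsIntegralModelOf E) (hp2 : p ≠ 2)
    (hirr : GaloisRepIsIrreducible (K := Qb) ℚ E.toAffine p)
    {J : Type*} [AddCommGroup J] [DistribMulAction GQ J] (V : AddSubgroup J)
    (hVp : ∀ y ∈ V, p • y = 0) (hVg : ∀ g : GQ, ∀ y ∈ V, g • y ∈ V)
    (hVne : ∃ y ∈ V, y ≠ 0)
    (hCH : ∀ (g : GQ) (t d : ℤ),
      (t : ZMod p) = galoisTrace ℚ (K := Qb) (W.map (Int.castRingHom ℚ)).toAffine p g →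
      (d : ZMod p) =
        LinearMap.det (galoisRepModuleEnd ℚ (K := Qb) (W.map (Int.castRingHom ℚ)) p g) →
      ∀ y ∈ V, g • g • y - t • g • y + d • y = 0) :
    ∃ θ : Submodule.torsionBy ℤ ((W₀.map (Int.castRingHom ℚ))⁄Qb).Point (p : ℕ) →+ J,
      Function.Injective θ ∧
      (∀ (g : GQ) (x : Submodule.torsionBy ℤ ((W₀.map (Int.castRingHom ℚ))⁄Qb).Point (p : ℕ)),
        θ (g • x) = g • θ x) ∧
      ∀ x, θ x ∈ V := by
  obtain ⟨C₀, hC₀⟩ := id hW₀
  refine blr_embed_addSubgroup W₀ hΔ₀ p hp2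
    (galoisRepIsIrreducible_of_model E W₀ C₀ hC₀ p hirr) V hVp hVg hVne ?_
  intro g
  obtain ⟨t, ht⟩ := ZMod.intCast_surjective
    (galoisTrace ℚ (K := Qb) (W.map (Int.castRingHom ℚ)).toAffine p g)
  obtain ⟨d, hd⟩ := ZMod.intCast_surjective
    (LinearMap.det (galoisRepModuleEnd ℚ (K := Qb) (W.map (Int.castRingHom ℚ)) p g))
  exact ⟨t, d, ht.trans (galoisTrace_eq_of_two_models E W₀ W p hW₀ hW g).symm,
    hd.trans (galoisDet_eq_of_two_models E W₀ W p hW₀ hW g).symm, hCH g t d ht hd⟩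

end two

section frey

variable (P : FreyPackage) (W : WeierstrassCurve ℤ) [DecidableEq Qb]

/-- **BLR for the Frey curve**: the embedding lives on `E[p]` of the integral Frey model, the
Frobenius relation is the one of any integral model `W` of the Frey curve. -/
theorem blr_embed_frey (hW : W.IsIntegralModelOf P.freyCurve)
    (hirr : GaloisRepIsIrreducible (K := Qb) ℚ P.freyCurve.toAffine P.p)
    {J : Type*} [AddCommGroup J] [DistribMulAction GQ J] (V : AddSubgroup J)
    (hVp : ∀ y ∈ V, P.p • y = 0) (hVg : ∀ g : GQ, ∀ y ∈ V, g • y ∈ V)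
    (hVne : ∃ y ∈ V, y ≠ 0)
    (hCH : ∀ (g : GQ) (t d : ℤ),
      (t : ZMod P.p) = galoisTrace ℚ (K := Qb) (W.map (Int.castRingHom ℚ)).toAffine P.p g →
      (d : ZMod P.p) =
        LinearMap.det (galoisRepModuleEnd ℚ (K := Qb) (W.map (Int.castRingHom ℚ)) P.p g) →
      ∀ y ∈ V, g • g • y - t • g • y + d • y = 0) :
    ∃ θ : Submodule.torsionBy ℤ ((P.freyCurveInt.map (Int.castRingHom ℚ))⁄Qb).Point (P.p : ℕ)
        →+ J,
      Function.Injective θ ∧
      (∀ (g : GQ)
        (x : Submodule.torsionBy ℤ ((P.freyCurveInt.map (Int.castRingHom ℚ))⁄Qb).Point (P.p : ℕ)),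
        θ (g • x) = g • θ x) ∧
      ∀ x, θ x ∈ V := by
  haveI : Fact P.p.Prime := ⟨P.pp⟩
  have hp2 : P.p ≠ 2 := by
    have := P.hp5
    omega
  exact blr_embed_two_models P.freyCurve P.freyCurveInt W P.p
    (Fermat.Agent.FreyLib.freyCurveInt_Δ_ne_zero P)
    (Fermat.Agent.FreyLib.freyCurveInt_isIntegralModelOf P) hW hp2 hirr V hVp hVg hVne hCH

end frey

end Fermat.Agent.R38
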