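import Fermat.Agent.R38.G.FrobRelJ
import Fermat.Agent.Lib.FrobTrace.MainAll
import Fermat.Agent.Lib.FrobDensity.Main

/-!
# Row 38, block G, seat G3a: the Frobenius relation on the eigenspace (helper14)

`W / ℤ` a Weierstrass model, `E₀ = W_ℚ`, `p` a prime, `S` a finite set of primes containing the bad
primes of `W`.  For `y ∈ J₀(N)(ℚ̄)[p]` with `T_ℓ y = a_ℓ(W) y` for all primes `ℓ ∉ S`, `ℓ ∤ N`, and
EVERY `σ ∈ G_ℚ`:

  `σ² y - tr(ρ_{E₀,p} σ) σ y + det(ρ_{E₀,p} σ) y = 0`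

(`g3a_frobRel_of`; the trace and the determinant are given by arbitrary integer lifts).

Proof: Frobenius density gives a Frobenius element `τ` at a good prime `ℓ ∉ S ∪ {p}`, `ℓ ∤ N`, and
`j` with `σ = τ^j` on `E₀[p]` and on `J₀(N)[p]`; Eichler–Shimura on `J₀(N)[p]` and the eigen-property
give `τ² - a_ℓ τ + ℓ = 0` on the eigenspace, `tr(ρ τ) = a_ℓ`, `det(ρ τ) = ℓ` (Lib/FrobTrace), and
the relation passes to the powers (`FrobRelCore.lean`).

The four interface propositions of cluster A/B are hypotheses here; they are plugged in in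
`FrobRelFinal.lean`.
-/

set_option autoImplicit false
set_option linter.style.haveILetI false
set_option linter.unusedSectionVars false

noncomputable section

open WeierstrassCurve WeierstrassCurve.Affine WeierstrassCurve.Affine.Point

namespace Fermat.Agent.R38

open ModularCurve AlgebraicCurve
open Fermat.Agent.F3 (GQ)

local notation "Qb" => AlgebraicClosure ℚ

section ESide

variable (W : WeierstrassCurve ℤ) {p : ℕ} [Fact p.Prime] [DecidableEq Qb]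

/-- A basis of `E₀[p^m]` over `ZMod (p^m)`. -/
theorem g3a_exists_basis (hΔ : W.Δ ≠ 0) (m : ℕ) :
    Nonempty (Module.Basis (Fin 2) (ZMod (p ^ m))
      (Submodule.torsionBy ℤ ((W.map (Int.castRingHom ℚ))⁄Qb).Point ((p ^ m : ℕ) : ℤ))) := by
  have hpprime : p.Prime := Fact.out
  have hΔ' : ((W.map (Int.castRingHom ℚ))⁄Qb).Δ ≠ 0 := by
    change ((W.map (Int.castRingHom ℚ)).map (algebraMap ℚ Qb)).Δ ≠ 0
    rw [WeierstrassCurve.map_Δ, WeierstrassCurve.map_Δ]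
    simpa using hΔ
  have hcard1 : Nat.card (Submodule.torsionBy ℤ
      ((W.map (Int.castRingHom ℚ))⁄Qb).Point ((p ^ 1 : ℕ) : ℤ)) = p ^ (2 * 1) := by
    rw [Fermat.Agent.Torsion.card_torsionBy hΔ' (n := p ^ 1) (Nat.one_le_pow _ _ hpprime.pos)]
    ring
  have hdiv : ∀ x : ((W.map (Int.castRingHom ℚ))⁄Qb).Point,
      (∃ n : ℕ, (p : ℤ) ^ n • x = 0) → ∃ y, (p : ℤ) • y = x := by
    intro x _
    obtain ⟨y, hy⟩ := Fermat.Agent.Torsion.smul_surjective hΔ' (n := p) hpprime.one_lt.le x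
    exact ⟨y, by rw [natCast_zsmul]; exact hy⟩
  exact Fermat.Agent.FrobTrace.exists_basis_torsionBy
    (G := ((W.map (Int.castRingHom ℚ))⁄Qb).Point) p hcard1 hdiv m

/-- Trace and determinant on `E₀[p^m]` of an element acting as the `j`-th power of a Frobenius
element at a good prime `ℓ ≠ p`. -/
theorem g3a_trace_det_of_pow (hΔ : W.Δ ≠ 0) {ℓ : ℕ} [Fact ℓ.Prime] (hℓp : ℓ ≠ p)
    (hgood : W.IsGoodPrimeFor ℓ) (A : ValuationSubring Qb) (hA : A.LiesOverPrime ℓ)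
    (τ : GQ) (hτ : A.IsFrobeniusAt τ ℓ) (m j : ℕ) (σ : GQ)
    (hσ : galoisRepModuleEnd ℚ (K := Qb) (W.map (Int.castRingHom ℚ)) (p ^ m) σ
      = galoisRepModuleEnd ℚ (K := Qb) (W.map (Int.castRingHom ℚ)) (p ^ m) τ ^ j) :
    galoisTrace ℚ (W.map (Int.castRingHom ℚ)) (p ^ m) σ
        = ((g3aLucas (W.apOfModel ℓ : ℤ) (ℓ : ℤ) j : ℤ) : ZMod (p ^ m)) ∧
      LinearMap.det (galoisRepModuleEnd ℚ (K := Qb) (W.map (Int.castRingHom ℚ)) (p ^ m) σ)
        = (((ℓ : ℤ) ^ j : ℤ) : ZMod (p ^ m)) := by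
  obtain ⟨bs⟩ := g3a_exists_basis W hΔ (p := p) m
  obtain ⟨htr, hdet⟩ :=
    Fermat.Agent.FrobTrace.galois_trace_det_frobenius_all W hℓp hgood A hA τ hτ m
  rw [galoisTrace_def] at htr ⊢
  constructor
  · rw [hσ, g3a_end_trace_pow bs, htr, hdet]
    exact (g3aLucas_map (Int.castRingHom (ZMod (p ^ m))) _ _ j).symm
  · rw [hσ, map_pow, hdet, Int.cast_pow]

end ESide

section Main

variable (N : ℕ) [NeZero N] {p : ℕ} [Fact p.Prime] (W : WeierstrassCurve ℤ) (S : Finset ℕ)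
  [DecidableEq Qb]

theorem g3a_disc_ne_zero (hgood : ∀ ℓ : ℕ, ℓ.Prime → ℓ ∉ S → W.IsGoodPrimeFor ℓ) :
    W.Δ ≠ 0 := by
  obtain ⟨q, hq1, hq2⟩ := Nat.exists_infinite_primes (S.sup id + 1)
  have hqS : q ∉ S := fun h => by
    have := Finset.le_sup (f := id) h
    simp only [id] at this
    omega
  intro h0
  exact hgood q hq2 hqS (by rw [h0]; exact dvd_zero _)

/-- The Frobenius relation, at level `p ^ 1`. -/
theorem g3a_frobRel_pow (hF : Fermat.Agent.F3.TorsionFinite N)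
    (hO : Fermat.Agent.F3.TorsionOpenStab N) (hC : Fermat.Agent.F3.HeckeGaloisComm N)
    (hQ : Fermat.Agent.F3.TorsionFrobQuadratic N)
    (hgood : ∀ ℓ : ℕ, ℓ.Prime → ℓ ∉ S → W.IsGoodPrimeFor ℓ)
    (σ : GQ) (T' D' : ℤ)
    (hT' : (T' : ZMod (p ^ 1)) = galoisTrace ℚ (W.map (Int.castRingHom ℚ)) (p ^ 1) σ)
    (hD' : (D' : ZMod (p ^ 1)) = LinearMap.det
      (galoisRepModuleEnd ℚ (K := Qb) (W.map (Int.castRingHom ℚ)) (p ^ 1) σ))
    {y : JZero N} (hy : y ∈ g3aEig N p W S) :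
    σ • σ • y - T' • σ • y + D' • y = 0 := by
  have hp : p.Prime := Fact.out
  have hΔ := g3a_disc_ne_zero W S hgood
  haveI := Fermat.Agent.FrobTrace.finite_torsionBy_pow W hΔ (p := p) 1
  -- the open normal subgroup
  let ρ := galoisRepModuleEnd ℚ (K := Qb) (W.map (Int.castRingHom ℚ)) (p ^ 1)
  let U : Subgroup GQ := ρ.ker ⊓ g3aKerJ N p
  haveI : U.Normal := Subgroup.normal_inf_normal _ _
  have hU : IsOpen (U : Set GQ) := by
    have h1 : IsOpen {σ : GQ | ρ σ = 1} :=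
      Fermat.Agent.FrobTrace.isOpen_galoisRepModuleEnd_eq_one _ _
    have h2 := g3aKerJ_isOpen (N := N) (p := p) hF hO hp.pos
    have : (U : Set GQ) = {σ : GQ | ρ σ = 1} ∩ (g3aKerJ N p : Set GQ) := by
      ext σ
      show σ ∈ ρ.ker ⊓ g3aKerJ N p ↔ _
      rw [Subgroup.mem_inf, MonoidHom.mem_ker]
      rfl
    rw [this]
    exact h1.inter h2
  obtain ⟨ℓ, A, τ, k, j, hℓ, hℓS', hA, hτ, -, hj⟩ :=
    Fermat.Agent.FrobDensity.frobenius_density_open U hU σ (S ∪ {p} ∪ N.primeFactors)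
  haveI : Fact ℓ.Prime := ⟨hℓ⟩
  have hℓS : ℓ ∉ S := fun h => hℓS' (by simp [h])
  have hℓp : ℓ ≠ p := fun h => hℓS' (by simp [h])
  have hℓN : ¬ ℓ ∣ N := fun h => hℓS' (by
    simp only [Finset.mem_union, Nat.mem_primeFactors]
    exact Or.inr ⟨hℓ, h, NeZero.ne N⟩)
  have hℓNp : ¬ ℓ ∣ N * p := fun h => by
    rcases (Nat.Prime.dvd_mul hℓ).mp h with h1 | h1
    · exact hℓN h1
    · exact hℓp ((Nat.prime_dvd_prime_iff_eq hℓ hp).mp h1)
  obtain ⟨hjE, hjJ⟩ := Subgroup.mem_inf.mp hj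
  -- the `E₀`-side
  have hσρ : ρ σ = ρ τ ^ j := by
    have h3 : ρ σ * ρ (σ⁻¹ * τ ^ j) = ρ τ ^ j := by
      rw [← map_mul, mul_inv_cancel_left, map_pow]
    rw [MonoidHom.mem_ker.mp hjE, mul_one] at h3
    exact h3
  obtain ⟨htr, hdet⟩ := g3a_trace_det_of_pow W hΔ hℓp (hgood ℓ hℓ hℓS) A hA τ hτ 1 j σ hσρ
  -- the `J₀(N)`-side
  have hτσ : ∀ x : JZero N, p • x = 0 → τ ^ j • x = σ • x := by
    intro x hx
    have h3 := mem_g3aKerJ.mp hjJ x hx
    rw [mul_smul, inv_smul_eq_iff] at h3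
    exact h3
  have key := g3aEig_quad_pow hC hQ hℓ hℓS hℓN hℓNp A hA τ hτ j hy
  have hσy : σ • y ∈ g3aEig N p W S := g3aEig_smul hC σ hy
  rw [hτσ y hy.1, hτσ (σ • y) hσy.1] at key
  -- the coefficients
  have hpy : (p ^ 1) • y = 0 := by rw [pow_one]; exact hy.1
  have hpσy : (p ^ 1) • (σ • y) = 0 := by rw [pow_one]; exact hσy.1
  rw [g3a_zsmul_congr (n := p ^ 1) (hT'.trans htr) hpσy,
    g3a_zsmul_congr (n := p ^ 1) (hD'.trans hdet) hpy]
  exact key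

/-- **G3a, conditional form**: the Frobenius relation on the eigenspace, for every `σ ∈ G_ℚ` and
arbitrary integer lifts `T'`, `D'` of the trace and the determinant of `σ` on `E₀[p]`. -/
theorem g3a_frobRel_of (hF : Fermat.Agent.F3.TorsionFinite N)
    (hO : Fermat.Agent.F3.TorsionOpenStab N) (hC : Fermat.Agent.F3.HeckeGaloisComm N)
    (hQ : Fermat.Agent.F3.TorsionFrobQuadratic N)
    (hgood : ∀ ℓ : ℕ, ℓ.Prime → ℓ ∉ S → W.IsGoodPrimeFor ℓ)
    (σ : GQ) (T' D' : ℤ)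
    (hT' : (T' : ZMod p) = galoisTrace ℚ (W.map (Int.castRingHom ℚ)) p σ)
    (hD' : (D' : ZMod p) = LinearMap.det
      (galoisRepModuleEnd ℚ (K := Qb) (W.map (Int.castRingHom ℚ)) p σ))
    {y : JZero N} (hy : y ∈ g3aEig N p W S) :
    σ • σ • y - T' • σ • y + D' • y = 0 := by
  have key : ∀ n : ℕ, n = p ^ 1 →
      (T' : ZMod n) = galoisTrace ℚ (W.map (Int.castRingHom ℚ)) n σ →
      (D' : ZMod n) = LinearMap.det
        (galoisRepModuleEnd ℚ (K := Qb) (W.map (Int.castRingHom ℚ)) n σ) →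
      σ • σ • y - T' • σ • y + D' • y = 0 := by
    intro n hn h1 h2
    subst hn
    exact g3a_frobRel_pow N W S hF hO hC hQ hgood σ T' D' h1 h2 hy
  exact key p (pow_one p).symm hT' hD'

end Main

end Fermat.Agent.R38
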