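import Mathlib

/-!
# Row 38, block G, seat G3a: the abstract core of the Frobenius relation (helper14)

* `g3aLucas t d`: the Lucas sequence `s 0 = 2`, `s 1 = t`, `s (j+2) = t s (j+1) - d s j`.
* `g3a_pow_quadratic`: in an `R`-algebra, `a² - t a + d = 0` implies
  `(a^j)² - s_j a^j + d^j = 0`.
* `g3a_end_trace_pow`: on a free module of rank `2`, `tr (B^j) = s_j (tr B, det B)`.
* `g3a_core`: if `a² - tr(B) a + det(B) = 0` then `(a^j)² - tr(B^j) a^j + det(B^j) = 0`.
-/

set_option autoImplicit false

namespace Fermat.Agent.R38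

section Lucas

variable {R : Type*} [CommRing R]

/-- The Lucas sequence `V_j(t, d)`. -/
def g3aLucas (t d : R) : ℕ → R
  | 0 => 2
  | 1 => t
  | (j + 2) => t * g3aLucas t d (j + 1) - d * g3aLucas t d j

@[simp] theorem g3aLucas_zero (t d : R) : g3aLucas t d 0 = 2 := rfl

@[simp] theorem g3aLucas_one (t d : R) : g3aLucas t d 1 = t := rfl

theorem g3aLucas_succ_succ (t d : R) (j : ℕ) :
    g3aLucas t d (j + 2) = t * g3aLucas t d (j + 1) - d * g3aLucas t d j := rfl

theorem g3aLucas_map {R' : Type*} [CommRing R'] (f : R →+* R') (t d : R) (j : ℕ) :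
    f (g3aLucas t d j) = g3aLucas (f t) (f d) j := by
  induction j using Nat.strong_induction_on with
  | _ j ih =>
    match j, ih with
    | 0, _ => rw [g3aLucas_zero, g3aLucas_zero]; exact map_ofNat f 2
    | 1, _ => rw [g3aLucas_one, g3aLucas_one]
    | (j + 2), ih =>
      rw [g3aLucas_succ_succ, g3aLucas_succ_succ, map_sub, map_mul, map_mul,
        ih (j + 1) (by omega), ih j (by omega)]

end Lucas

section Algebra

variable {R E : Type*} [CommRing R] [Ring E] [Algebra R E]

theorem g3a_sq_eq (a : E) (t d : R) (h : a * a - t • a + d • (1 : E) = 0) :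
    a * a = t • a - d • (1 : E) := by
  rw [← sub_eq_zero, ← h]
  abel

theorem g3a_mul_conj (a : E) (t d : R) (h : a * a - t • a + d • (1 : E) = 0) :
    a * (t • (1 : E) - a) = d • (1 : E) := by
  rw [mul_sub, mul_smul_comm, mul_one, g3a_sq_eq a t d h]
  abel

theorem g3a_conj_mul (a : E) (t d : R) (h : a * a - t • a + d • (1 : E) = 0) :
    (t • (1 : E) - a) * a = d • (1 : E) := by
  rw [sub_mul, smul_mul_assoc, one_mul, g3a_sq_eq a t d h]
  abel

/-- `a^j + (t - a)^j = s_j` when `a² - t a + d = 0`. -/
theorem g3a_pow_add_conj (a : E) (t d : R)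
    (h : a * a - t • a + d • (1 : E) = 0) (j : ℕ) :
    a ^ j + (t • (1 : E) - a) ^ j = g3aLucas t d j • (1 : E) := by
  have hab := g3a_mul_conj a t d h
  have hba := g3a_conj_mul a t d h
  generalize hb : t • (1 : E) - a = b at hab hba ⊢
  have hsum : a + b = t • (1 : E) := by rw [← hb]; abel
  induction j using Nat.strong_induction_on with
  | _ j ih =>
    match j, ih with
    | 0, _ =>
      rw [pow_zero, pow_zero, g3aLucas_zero, ← one_add_one_eq_two, add_smul, one_smul]
    | 1, _ => rw [pow_one, pow_one, g3aLucas_one, hsum]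
    | (j + 2), ih =>
      have h1 := ih (j + 1) (by omega)
      have h0 := ih j (by omega)
      have e1 : a * b ^ (j + 1) = (a * b) * b ^ j := by rw [pow_succ', mul_assoc]
      have e2 : b * a ^ (j + 1) = (b * a) * a ^ j := by rw [pow_succ', mul_assoc]
      have e3 : a * a ^ (j + 1) = a ^ (j + 2) := (pow_succ' a (j + 1)).symm
      have e4 : b * b ^ (j + 1) = b ^ (j + 2) := (pow_succ' b (j + 1)).symm
      have e : a ^ (j + 2) + b ^ (j + 2)
          = (a + b) * (a ^ (j + 1) + b ^ (j + 1)) - (a * b) * b ^ j - (b * a) * a ^ j := by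
        rw [add_mul, mul_add, mul_add, e1, e2, e3, e4]
        abel
      have h0' : b ^ j + a ^ j = g3aLucas t d j • (1 : E) := by rw [add_comm]; exact h0
      rw [e, h1, hab, hba, hsum]
      simp only [smul_mul_assoc, one_mul]
      rw [sub_sub, ← smul_add, h0', smul_smul, smul_smul, ← sub_smul, g3aLucas_succ_succ]

/-- **Lemma A**: `a² - t a + d = 0` implies `(a^j)² - s_j a^j + d^j = 0`. -/
theorem g3a_pow_quadratic (a : E) (t d : R)
    (h : a * a - t • a + d • (1 : E) = 0) (j : ℕ) :
    a ^ j * a ^ j - g3aLucas t d j • a ^ j + d ^ j • (1 : E) = 0 := by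
  have hab := g3a_mul_conj a t d h
  have hba := g3a_conj_mul a t d h
  have hs := g3a_pow_add_conj a t d h j
  generalize t • (1 : E) - a = b at hab hba hs
  have hcomm : Commute a b := by
    show a * b = b * a
    rw [hab, hba]
  have hd : a ^ j * b ^ j = d ^ j • (1 : E) := by
    rw [← hcomm.mul_pow, hab, smul_pow, one_pow]
  have e : g3aLucas t d j • a ^ j = (a ^ j + b ^ j) * a ^ j := by
    rw [hs, smul_mul_assoc, one_mul]
  rw [e, ← hd, add_mul, (hcomm.pow_pow j j).eq]
  abel

end Algebra

section Rank2

variable {R : Type*} [CommRing R]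

/-- Cayley–Hamilton for `2 × 2` matrices. -/
theorem g3a_matrix_cayley_hamilton (M : Matrix (Fin 2) (Fin 2) R) :
    M * M - M.trace • M + M.det • (1 : Matrix (Fin 2) (Fin 2) R) = 0 := by
  ext i j
  fin_cases i <;> fin_cases j <;>
    simp [Matrix.mul_apply, Fin.sum_univ_two, Matrix.trace_fin_two, Matrix.det_fin_two] <;> ring

/-- The trace of a power of a `2 × 2` matrix is the Lucas sequence of its trace and
determinant. -/
theorem g3a_matrix_trace_pow (M : Matrix (Fin 2) (Fin 2) R) (j : ℕ) :
    (M ^ j).trace = g3aLucas M.trace M.det j := by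
  induction j using Nat.strong_induction_on with
  | _ j ih =>
    match j, ih with
    | 0, _ =>
      rw [pow_zero, Matrix.trace_one, g3aLucas_zero]
      simp
    | 1, _ => rw [pow_one, g3aLucas_one]
    | (j + 2), ih =>
      have hpow : M ^ (j + 2) = M.trace • M ^ (j + 1) - M.det • M ^ j := by
        have hCH := g3a_matrix_cayley_hamilton M
        have h2 : M * M = M.trace • M - M.det • (1 : Matrix (Fin 2) (Fin 2) R) := by
          rw [← sub_eq_zero, ← hCH]
          abel
        calc M ^ (j + 2) = (M * M) * M ^ j := by rw [← pow_two, ← pow_add, add_comm]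
             _ = M.trace • M ^ (j + 1) - M.det • M ^ j := by
              rw [h2, sub_mul, smul_mul_assoc, smul_mul_assoc, one_mul, pow_succ']
      rw [hpow, Matrix.trace_sub, Matrix.trace_smul, Matrix.trace_smul, ih (j + 1) (by omega),
        ih j (by omega), g3aLucas_succ_succ, smul_eq_mul, smul_eq_mul]

variable {V : Type*} [AddCommGroup V] [Module R V]

/-- The trace of a power of an endomorphism of a free module of rank `2`. -/
theorem g3a_end_trace_pow (bs : Module.Basis (Fin 2) R V) (B : Module.End R V) (j : ℕ) :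
    LinearMap.trace R V (B ^ j) = g3aLucas (LinearMap.trace R V B) (LinearMap.det B) j := by
  rw [LinearMap.trace_eq_matrix_trace R bs, LinearMap.trace_eq_matrix_trace R bs,
    ← LinearMap.det_toMatrix bs]
  have : LinearMap.toMatrix bs bs (B ^ j) = (LinearMap.toMatrix bs bs B) ^ j := by
    induction j with
    | zero => simp [Module.End.one_eq_id]
    | succ j ih =>
      rw [pow_succ, pow_succ, Module.End.mul_eq_comp, LinearMap.toMatrix_comp bs bs bs, ih]
  rw [this]
  exact g3a_matrix_trace_pow _ j

variable {E : Type*} [Ring E] [Algebra R E]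

/-- **The core of G3a**: the quadratic relation for `(a, B)` implies the one for
`(a^j, B^j)`. -/
theorem g3a_core (bs : Module.Basis (Fin 2) R V) (B : Module.End R V) (a : E) (j : ℕ)
    (h : a * a - LinearMap.trace R V B • a + LinearMap.det B • (1 : E) = 0) :
    a ^ j * a ^ j - LinearMap.trace R V (B ^ j) • a ^ j + LinearMap.det (B ^ j) • (1 : E)
      = 0 := by
  rw [g3a_end_trace_pow bs, map_pow]
  exact g3a_pow_quadratic a _ _ h j

end Rank2

end Fermat.Agent.R38
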