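import Fermat.Agent.R38.G.FrobRel
import Fermat.Agent.F3.OpenStab
import Fermat.Agent.F3.Galois.HeckeComm
import Fermat.Agent.F3.TorsFin.Final
import Fermat.Agent.Lib.GaussInt.FrobPowFinal
import Fermat.Agent.Lib.GaussInt.KeyAux
import Fermat.Agent.Lib.HeckeInputs.Qbar

/-!
# Row 38, block G, seat G3a: the Frobenius relation, unconditional (helper14)

`g3a_frobRel`: for `y ∈ J₀(N)(ℚ̄)` with `p y = 0` and `T_ℓ y = a_ℓ(W) y` for all primes `ℓ ∉ S`,
`ℓ ∤ N` (`S` ⊇ bad primes of `W`), every `σ ∈ G_ℚ` and all integer lifts `T'`, `D'` of the trace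
and the determinant of `σ` on `E₀[p]`, `E₀ = W_ℚ`:  `σ σ y - T' σ y + D' y = 0`.
-/

set_option autoImplicit false
set_option linter.style.haveILetI false
set_option linter.unusedSectionVars false

noncomputable section

open WeierstrassCurve WeierstrassCurve.Affine WeierstrassCurve.Affine.Point

namespace Fermat.Agent.R38

open ModularCurve AlgebraicCurve
open Fermat.Agent.F3 (GQ)

local notation "Qb" => AlgebraicClosure ℚ

/-- Eichler–Shimura on the torsion of `J₀(N)`, unconditional. -/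
theorem g3a_torsionFrobQuadratic (N : ℕ) [NeZero N] : Fermat.Agent.F3.TorsionFrobQuadratic N :=
  Fermat.Agent.GaussIntFP.torsionFrobQuadratic_of_keyLemmaAt
    (Fermat.Agent.GaussInt.keyLemmaAt_all N)
    (fun q => by
      haveI : NeZero (q : ℕ) := ⟨q.2.ne_zero⟩
      exact Fermat.Agent.HeckeInputs.hi_heckeInputsAlong_Qbar N q)

/-- **G3a**: the Frobenius relation on the eigenspace of `ℓ ↦ a_ℓ(W)` in `J₀(N)(ℚ̄)[p]`. -/
theorem g3a_frobRel (N : ℕ) [NeZero N] {p : ℕ} [Fact p.Prime] (W : WeierstrassCurve ℤ)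
    (S : Finset ℕ) [DecidableEq Qb]
    (hgood : ∀ ℓ : ℕ, ℓ.Prime → ℓ ∉ S → W.IsGoodPrimeFor ℓ)
    (σ : GQ) (T' D' : ℤ)
    (hT' : (T' : ZMod p) = galoisTrace ℚ (W.map (Int.castRingHom ℚ)) p σ)
    (hD' : (D' : ZMod p) = LinearMap.det
      (galoisRepModuleEnd ℚ (K := Qb) (W.map (Int.castRingHom ℚ)) p σ))
    {y : JZero N} (hy1 : p • y = 0)
    (hy3 : ∀ ℓ : Nat.Primes, (ℓ : ℕ) ∉ S → ¬ (ℓ : ℕ) ∣ N →
      heckeOperatorBar N ℓ y = (W.apOfModel ℓ : ℤ) • y) :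
    σ • σ • y - T' • σ • y + D' • y = 0 :=
  g3a_frobRel_of N W S (Fermat.Agent.F3TF.torsionFinite N) (Fermat.Agent.F3.torsionOpenStab N)
    (Fermat.Agent.F3G.heckeGaloisComm N) (g3a_torsionFrobQuadratic N) hgood σ T' D' hT' hD'
    (mem_g3aEig.mpr ⟨hy1, hy3⟩)

end Fermat.Agent.R38
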