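import Fermat.Agent.R38.G.FrobRelCore
import Fermat.Agent.F3.Interfaces

/-!
# Row 38, block G, seat G3a: the `J₀(N)` side of the Frobenius relation (helper14)

* `g3aEig N p W S`: the eigenspace of `ℓ ↦ a_ℓ(W)` in `J₀(N)(ℚ̄)[p]` (no newness condition);
* `g3aEig_quad_pow`: the Eichler–Shimura relation `τ² - a_ℓ τ + ℓ = 0` on it for a Frobenius
  `τ`, and its consequence for the powers of `τ`;
* `g3aKerJ N p`: the open normal subgroup of `G_ℚ` acting trivially on `J₀(N)(ℚ̄)[p]`.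
-/

set_option autoImplicit false
set_option linter.style.haveILetI false
set_option linter.unusedSectionVars false

noncomputable section

namespace Fermat.Agent.R38

open ModularCurve AlgebraicCurve
open Fermat.Agent.F3 (GQ)

local notation "Qb" => AlgebraicClosure ℚ

section Aux

variable {M : Type*} [AddCommGroup M]

theorem g3a_nsmul_zsmul (p : ℕ) (c : ℤ) (a : M) : p • (c • a) = c • (p • a) := by
  rw [← natCast_zsmul, ← natCast_zsmul, smul_comm]

theorem g3a_zsmul_zsmul (c d : ℤ) (a : M) : c • (d • a) = d • (c • a) :=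
  smul_comm c d a

/-- Abstract form of the power relation on an invariant submodule. -/
theorem g3a_submodule_quad_pow (E : Submodule ℤ M) (f : M →ₗ[ℤ] M)
    (hf : ∀ y ∈ E, f y ∈ E) (a d : ℤ)
    (h : ∀ y ∈ E, f (f y) - a • f y + d • y = 0) (j : ℕ) :
    ∀ y ∈ E, (f ^ j) ((f ^ j) y) - g3aLucas a d j • (f ^ j) y + d ^ j • y = 0 := by
  intro y hy
  have hrel : f.restrict hf * f.restrict hf - a • f.restrict hf
      + d • (1 : Module.End ℤ E) = 0 := by
    refine LinearMap.ext fun z => Subtype.ext ?_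
    simpa using h z z.2
  have hp := g3a_pow_quadratic (f.restrict hf) a d hrel j
  have hpow : ∀ z : E, (((f.restrict hf) ^ j) z : M) = (f ^ j) z := by
    intro z
    rw [Module.End.pow_restrict j hf]
    rfl
  have h2 := congrArg (fun g : Module.End ℤ E => ((g ⟨y, hy⟩ : E) : M)) hp
  simp only [LinearMap.add_apply, LinearMap.sub_apply, LinearMap.smul_apply,
    Module.End.mul_apply, Module.End.one_apply, LinearMap.zero_apply, Submodule.coe_add,
    Submodule.coe_sub, Submodule.coe_smul, Submodule.coe_zero, hpow] at h2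
  exact h2

end Aux

section Eig

variable (N : ℕ) [NeZero N] (p : ℕ) (W : WeierstrassCurve ℤ) (S : Finset ℕ)

/-- The eigenspace of `ℓ ↦ a_ℓ(W)` in `J₀(N)(ℚ̄)[p]`. -/
def g3aEig : Submodule ℤ (JZero N) where
  carrier := {y | p • y = 0 ∧ ∀ ℓ : Nat.Primes, (ℓ : ℕ) ∉ S → ¬ (ℓ : ℕ) ∣ N →
      heckeOperatorBar N ℓ y = (W.apOfModel ℓ : ℤ) • y}
  zero_mem' := ⟨smul_zero _, fun ℓ _ _ => by rw [map_zero, smul_zero]⟩
  add_mem' := by
    rintro a b ⟨ha1, ha3⟩ ⟨hb1, hb3⟩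
    exact ⟨by rw [nsmul_add, ha1, hb1, add_zero],
      fun ℓ h1 h2 => by rw [map_add, ha3 ℓ h1 h2, hb3 ℓ h1 h2, zsmul_add]⟩
  smul_mem' := by
    rintro c a ⟨ha1, ha3⟩
    exact ⟨by rw [g3a_nsmul_zsmul, ha1, zsmul_zero],
      fun ℓ h1 h2 => by
        rw [LinearMap.map_smul, ha3 ℓ h1 h2]; exact g3a_zsmul_zsmul _ _ _⟩

variable {N p W S}

theorem mem_g3aEig {y : JZero N} :
    y ∈ g3aEig N p W S ↔ p • y = 0 ∧ ∀ ℓ : Nat.Primes, (ℓ : ℕ) ∉ S → ¬ (ℓ : ℕ) ∣ N →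
      heckeOperatorBar N ℓ y = (W.apOfModel ℓ : ℤ) • y := Iff.rfl

theorem g3a_gal_nsmul (σ : GQ) (n : ℕ) (y : JZero N) : σ • (n • y) = n • (σ • y) :=
  map_nsmul (DistribSMul.toAddMonoidHom (JZero N) σ) n y

theorem g3a_gal_zsmul (σ : GQ) (n : ℤ) (y : JZero N) : σ • (n • y) = n • (σ • y) :=
  map_zsmul (DistribSMul.toAddMonoidHom (JZero N) σ) n y

theorem g3a_gal_zero (σ : GQ) : σ • (0 : JZero N) = 0 :=
  map_zero (DistribSMul.toAddMonoidHom (JZero N) σ)

/-- The eigenspace is Galois-stable. -/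
theorem g3aEig_smul (hC : Fermat.Agent.F3.HeckeGaloisComm N) (σ : GQ) {y : JZero N}
    (hy : y ∈ g3aEig N p W S) : σ • y ∈ g3aEig N p W S := by
  obtain ⟨h1, h3⟩ := hy
  refine ⟨?_, fun ℓ hℓS hℓN => ?_⟩
  · rw [← g3a_gal_nsmul, h1]
    exact g3a_gal_zero σ
  · rw [hC ℓ σ y, h3 ℓ hℓS hℓN, g3a_gal_zsmul]

/-- `(galLin τ)^j = galLin (τ^j)` pointwise. -/
theorem g3a_galLin_pow_apply (τ : GQ) (j : ℕ) (y : JZero N) :
    (Fermat.Agent.F3.galLin N τ ^ j) y = τ ^ j • y := by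
  induction j generalizing y with
  | zero => rw [pow_zero, pow_zero, one_smul]; rfl
  | succ j ih =>
    rw [pow_succ, Module.End.mul_apply, ih, pow_succ, mul_smul]
    rfl

/-- The Eichler–Shimura relation on the eigenspace, for a Frobenius element at a prime
`ℓ ∉ S`, `ℓ ∤ N p`, and its powers: for `y` in the eigenspace,
`τ^j τ^j y - V_j(a_ℓ, ℓ) τ^j y + ℓ^j y = 0`. -/
theorem g3aEig_quad_pow (hC : Fermat.Agent.F3.HeckeGaloisComm N)
    (hQ : Fermat.Agent.F3.TorsionFrobQuadratic N) {ℓ : ℕ} (hℓ : ℓ.Prime) (hℓS : ℓ ∉ S)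
    (hℓN : ¬ ℓ ∣ N) (hℓNp : ¬ ℓ ∣ N * p)
    (A : ValuationSubring Qb) (hA : A.LiesOverPrime ℓ) (τ : GQ) (hτ : A.IsFrobeniusAt τ ℓ)
    (j : ℕ) {y : JZero N} (hy : y ∈ g3aEig N p W S) :
    τ ^ j • τ ^ j • y - g3aLucas (W.apOfModel ℓ : ℤ) (ℓ : ℤ) j • τ ^ j • y
      + (ℓ : ℤ) ^ j • y = 0 := by
  have hrel : ∀ z ∈ g3aEig N p W S,
      Fermat.Agent.F3.galLin N τ (Fermat.Agent.F3.galLin N τ z)
        - (W.apOfModel ℓ : ℤ) • Fermat.Agent.F3.galLin N τ z + (ℓ : ℤ) • z = 0 := by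
    intro z hz
    have h := hQ p ℓ hℓ hℓNp A hA τ hτ z hz.1
    have hz' : τ • z ∈ g3aEig N p W S := g3aEig_smul hC τ hz
    rw [hz'.2 ⟨ℓ, hℓ⟩ hℓS hℓN, ← natCast_zsmul] at h
    exact h
  have key := g3a_submodule_quad_pow (g3aEig N p W S) (Fermat.Agent.F3.galLin N τ)
    (fun z hz => g3aEig_smul hC τ hz) (W.apOfModel ℓ : ℤ) (ℓ : ℤ) hrel j y hy
  rw [g3a_galLin_pow_apply, g3a_galLin_pow_apply] at key
  exact key

end Eig

section Ker

variable (N : ℕ) [NeZero N] (p : ℕ)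

/-- The subgroup of `G_ℚ` acting trivially on `J₀(N)(ℚ̄)[p]`. -/
def g3aKerJ : Subgroup GQ where
  carrier := {σ | ∀ x : JZero N, p • x = 0 → σ • x = x}
  one_mem' := fun x _ => one_smul _ x
  mul_mem' := fun {a b} ha hb x hx => by rw [mul_smul, hb x hx, ha x hx]
  inv_mem' := fun {a} ha x hx => by
    rw [inv_smul_eq_iff, ha x hx]

variable {N p}

theorem mem_g3aKerJ {σ : GQ} :
    σ ∈ g3aKerJ N p ↔ ∀ x : JZero N, p • x = 0 → σ • x = x := Iff.rfl

instance g3aKerJ_normal : (g3aKerJ N p).Normal :=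
  ⟨fun σ hσ g x hx => by
    have hx' : p • (g⁻¹ • x) = 0 := by
      rw [← g3a_gal_nsmul, hx]
      exact g3a_gal_zero _
    rw [mul_smul, mul_smul, hσ _ hx', smul_inv_smul]⟩

theorem g3aKerJ_isOpen (hF : Fermat.Agent.F3.TorsionFinite N)
    (hO : Fermat.Agent.F3.TorsionOpenStab N) (hp : 0 < p) :
    IsOpen (g3aKerJ N p : Set GQ) := by
  have hset : (g3aKerJ N p : Set GQ)
      = ⋂ x ∈ {x : JZero N | p • x = 0}, {σ : GQ | σ • x = x} := by
    ext σ
    simp only [SetLike.mem_coe, mem_g3aKerJ, Set.mem_ofPred_eq, Set.mem_iInter]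
  rw [hset]
  refine (hF p hp).isOpen_biInter fun x hx => ?_
  obtain ⟨L, hL, hfix⟩ := hO p hp x hx
  haveI : FiniteDimensional ℚ L := hL
  have hopen : IsOpen (L.fixingSubgroup : Set GQ) := L.fixingSubgroup_isOpen
  have hle : L.fixingSubgroup ≤ MulAction.stabilizer GQ x := by
    intro σ hσ
    rw [MulAction.mem_stabilizer_iff]
    exact hfix σ fun y hy => (IntermediateField.mem_fixingSubgroup_iff L σ).mp hσ y hy
  have h2 : {σ : GQ | σ • x = x} = (MulAction.stabilizer GQ x : Set GQ) :=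
    Set.ext fun σ => Iff.rfl
  rw [h2]
  exact Subgroup.isOpen_mono hle hopen

end Ker

/-- Integers congruent modulo `n` act in the same way on an element killed by `n`. -/
theorem g3a_zsmul_congr {M : Type*} [AddCommGroup M] {n : ℕ} {a b : ℤ}
    (h : (a : ZMod n) = (b : ZMod n)) {z : M} (hz : n • z = 0) : a • z = b • z := by
  obtain ⟨c, hc⟩ := (ZMod.intCast_eq_intCast_iff_dvd_sub a b n).mp h
  have : b = a + (n : ℤ) * c := by rw [← hc]; ring
  rw [this, add_zsmul, mul_comm, mul_zsmul, natCast_zsmul, hz, zsmul_zero, add_zero]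

end Fermat.Agent.R38
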