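/-
Row 38 (S44), block G (global), sub-architect helper56: the INTERFACES of the block.
Definitions and `Prop`s only (plus `Iff.rfl`-lemmas).

Level `N = N₀ * p` (`h`), `D : ALData` with `N = D.Q * D.R` (`hM`; in practice `D.Q = p`, `D.R = N₀`),
`a : ℕ → ℤ` the eigen-system (`a ℓ = a_ℓ(W)` for an integral model `W` of the curve), `S` a finite
set of primes.

* `newEigenAt h D hM S a ≤ J₀(N)(ℚ̄)` : the points `y` with `p y = 0`, `α_* y = 0`, `α_* w_* y = 0`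
  (`S33.pnewAlpha`, `S33.pnewBeta`), `T_ℓ y = a ℓ • y` for all primes `ℓ ∉ S`, `ℓ ∤ N`.
  At `N = D.Q * D.R`, `h = mul_comm _ _`, `hM = rfl` membership is `spIsNewEigen D S a y` of
  `R38/SpineDefs.lean`, by `Iff.rfl`.
* `newEigenspace N i W S` : the same with `i : S35.NewIdx N 0` (`p = i.1`), `D = i.data`,
  `a = W.apOfModel`.
* `ETors E p = E[p](ℚ̄)` and `FreyEmbedsIn E p V` : a Galois-equivariant injection
  `θ : E[p] → J₀(N)(ℚ̄)` with image in `V`.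

Seats: G1 (helper69, `g1_dichotomy`), G2 (helper54, `BLR`), G3a (helper14, `FrobRel`),
G3b/G3c (helper54, `Odd`, `EmbedAbs`), OUT (helper56, `Main`).
-/
import Fermat.Agent.S33.PNew
import Fermat.Agent.F3.Interfaces
import Fermat.Prelude.Def_FLTPrelim_ModularRep

set_option autoImplicit false
set_option linter.style.haveILetI false
set_option linter.unusedSectionVars false

noncomputable section

namespace Fermat.Agent.R38

open ModularCurve AlgebraicCurve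
open Fermat.Agent.AtkinLehner (ALData)

local notation "Qb" => (AlgebraicClosure ℚ)
local notation "GQ" => (AlgebraicClosure ℚ ≃ₐ[ℚ] AlgebraicClosure ℚ)

section At

variable {N N₀ p : ℕ} [NeZero N] [NeZero N₀] [NeZero p]

/-- **`W_E`**: the `p`-new eigenspace of the system `ℓ ↦ a ℓ` in `J₀(N)(ℚ̄)[p]`, `N = N₀ p`. -/
def newEigenAt (h : N = N₀ * p) (D : ALData) (hM : N = D.Q * D.R) (S : Finset ℕ) (a : ℕ → ℤ) :
    AddSubgroup (JZero N) where
  carrier := {y | p • y = 0 ∧ Fermat.Agent.S33.pnewAlpha h y = 0 ∧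
    Fermat.Agent.S33.pnewBeta h D hM y = 0 ∧
    ∀ ℓ : Nat.Primes, (ℓ : ℕ) ∉ S → ¬ (ℓ : ℕ) ∣ N → heckeOperatorBar N ℓ y = a ℓ • y}
  zero_mem' := ⟨nsmul_zero _, map_zero _, map_zero _, fun ℓ _ _ => by rw [map_zero, zsmul_zero]⟩
  add_mem' := by
    rintro x y ⟨hx1, hx2, hx3, hx4⟩ ⟨hy1, hy2, hy3, hy4⟩
    refine ⟨by rw [nsmul_add, hx1, hy1, add_zero], by rw [map_add, hx2, hy2, add_zero],
      by rw [map_add, hx3, hy3, add_zero],
      fun ℓ h1 h2 => by rw [map_add, hx4 ℓ h1 h2, hy4 ℓ h1 h2, zsmul_add]⟩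
  neg_mem' := by
    rintro x ⟨hx1, hx2, hx3, hx4⟩
    refine ⟨by rw [neg_nsmul, hx1, neg_zero], by rw [map_neg, hx2, neg_zero],
      by rw [map_neg, hx3, neg_zero], fun ℓ h1 h2 => by rw [map_neg, hx4 ℓ h1 h2, zsmul_neg]⟩

theorem mem_newEigenAt {h : N = N₀ * p} {D : ALData} {hM : N = D.Q * D.R} {S : Finset ℕ}
    {a : ℕ → ℤ} {y : JZero N} :
    y ∈ newEigenAt h D hM S a ↔ p • y = 0 ∧ Fermat.Agent.S33.pnewAlpha h y = 0 ∧
      Fermat.Agent.S33.pnewBeta h D hM y = 0 ∧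
      ∀ ℓ : Nat.Primes, (ℓ : ℕ) ∉ S → ¬ (ℓ : ℕ) ∣ N → heckeOperatorBar N ℓ y = a ℓ • y :=
  Iff.rfl

/-- `newEigenAt` is stable under `G_ℚ`, as soon as the `T_ℓ` commute with `G_ℚ`. -/
theorem smul_mem_newEigenAt {h : N = N₀ * p} {D : ALData} {hM : N = D.Q * D.R} {S : Finset ℕ}
    {a : ℕ → ℤ}
    (hcomm : ∀ (ℓ : Nat.Primes) (σ : GQ) (y : JZero N),
      heckeOperatorBar N ℓ (σ • y) = σ • heckeOperatorBar N ℓ y)
    (σ : GQ) {y : JZero N} (hy : y ∈ newEigenAt h D hM S a) :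
    σ • y ∈ newEigenAt h D hM S a := by
  obtain ⟨h1, h2, h3, h4⟩ := hy
  have h0 : ∀ {M : ℕ}, σ • (0 : JZero M) = 0 := fun {M} => smul_zero (A := JZero M) σ
  refine ⟨?_, ?_, ?_, fun ℓ hℓS hℓN => ?_⟩
  · rw [smul_comm p σ y, h1]
    exact h0
  · rw [Fermat.Agent.S33.pnewAlpha_smul, h2]
    exact h0
  · rw [Fermat.Agent.S33.pnewBeta_smul, h3]
    exact h0
  · rw [hcomm, h4 ℓ hℓS hℓN]
    exact (smul_comm (a ℓ) σ y).symm

end At

/-- `newEigenAt` at the index `i : S35.NewIdx N 0` (`p = i.1`, `D = i.data`), for the system of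
the integral model `W`. -/
def newEigenspace (N : ℕ) [NeZero N] (i : Fermat.Agent.S35.NewIdx N 0) (W : WeierstrassCurve ℤ)
    (S : Finset ℕ) : AddSubgroup (JZero N) :=
  haveI := i.neZero_q
  haveI := i.neZero_N
  newEigenAt i.level_eq i.data i.level_eq_data S (fun ℓ => W.apOfModel ℓ)

theorem mem_newEigenspace {N : ℕ} [NeZero N] {i : Fermat.Agent.S35.NewIdx N 0}
    {W : WeierstrassCurve ℤ} {S : Finset ℕ} {y : JZero N} :
    y ∈ newEigenspace N i W S ↔ (i.1 : ℕ) • y = 0 ∧ Fermat.Agent.S33.newUAt i y = 0 ∧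
      ∀ ℓ : Nat.Primes, (ℓ : ℕ) ∉ S → ¬ (ℓ : ℕ) ∣ N →
        heckeOperatorBar N ℓ y = (W.apOfModel ℓ : ℤ) • y := by
  rw [Fermat.Agent.S33.newUAt_eq_zero_iff, and_assoc]
  exact Iff.rfl

open WeierstrassCurve WeierstrassCurve.Affine in
/-- The `p`-torsion of `E` over `ℚ̄`, as a Galois module (the Prelude's object). -/
abbrev ETors (E : WeierstrassCurve ℚ) (p : ℕ) : Type :=
  ↥(Submodule.torsionBy ℤ (E⁄Qb).Point ((p : ℕ) : ℤ))

/-- **(C)**: a Galois-equivariant injection `θ : E[p] → J₀(N)(ℚ̄)` with image in `V`. -/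
def FreyEmbedsIn (E : WeierstrassCurve ℚ) (p : ℕ) {N : ℕ} (V : AddSubgroup (JZero N)) : Prop :=
  ∃ θ : ETors E p →+ JZero N, Function.Injective θ ∧
    (∀ (σ : GQ) (x : ETors E p), θ (σ • x) = σ • θ x) ∧ ∀ x : ETors E p, θ x ∈ V

/-- **(C)** at the index `i`. -/
def FreyEmbedding (N : ℕ) [NeZero N] (i : Fermat.Agent.S35.NewIdx N 0) (E : WeierstrassCurve ℚ)
    (W : WeierstrassCurve ℤ) (S : Finset ℕ) : Prop :=
  FreyEmbedsIn E i.1 (newEigenspace N i W S)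

end Fermat.Agent.R38
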