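/-
Row 38 (S44), block G (global), sub-architect helper56: the OUTPUT of the block (junction J-G).

* `badSet N p W` : the finite set of the primes dividing `N` or `Δ(W)`, and `p`;
* `blockG_of` : from the mod-`p` dichotomy (G1, helper69) and the embedding (G3): either
  `P.ModularRepOfLevel N₀`, or `E[p]` embeds Galois-equivariantly in the `p`-new eigenspace
  `newEigenAt h D hM S a_ℓ(W)` of `J₀(N)(ℚ̄)[p]`.
-/
import Fermat.Agent.R38.G.Interfaces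
import Fermat.Agent.R38.Out
import Fermat.Agent.Lib.Frey.Basic

set_option autoImplicit false
set_option linter.style.haveILetI false

noncomputable section

namespace Fermat.Agent.R38

open ModularCurve AlgebraicCurve CuspForm WeierstrassCurve
open Fermat.Agent.AtkinLehner (ALData)

local notation "Qb" => (AlgebraicClosure ℚ)

/-- The primes dividing `N` or the discriminant of `W`, and `p`. -/
def badSet (N p : ℕ) (W : WeierstrassCurve ℤ) : Finset ℕ :=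
  insert p (N.primeFactors ∪ W.Δ.natAbs.primeFactors)

theorem mem_badSet_self (N p : ℕ) (W : WeierstrassCurve ℤ) : p ∈ badSet N p W :=
  Finset.mem_insert_self _ _

theorem mem_badSet_of_dvd {N : ℕ} (hN : N ≠ 0) (p : ℕ) (W : WeierstrassCurve ℤ) {q : ℕ}
    (hq : q.Prime) (h : q ∣ N) : q ∈ badSet N p W :=
  Finset.mem_insert_of_mem (Finset.mem_union_left _ (Nat.mem_primeFactors.2 ⟨hq, h, hN⟩))

theorem mem_badSet_of_bad (N p : ℕ) {W : WeierstrassCurve ℤ} (hΔ : W.Δ ≠ 0) {q : ℕ}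
    (hq : q.Prime) (h : ¬ W.IsGoodPrimeFor q) : q ∈ badSet N p W := by
  refine Finset.mem_insert_of_mem
    (Finset.mem_union_right _ (Nat.mem_primeFactors.2 ⟨hq, ?_, Int.natAbs_ne_zero.2 hΔ⟩))
  have h1 : (q : ℤ) ∣ W.Δ := not_not.1 h
  exact Int.natCast_dvd.1 h1

theorem not_dvd_of_not_mem_badSet {N : ℕ} (hN : N ≠ 0) (p : ℕ) (W : WeierstrassCurve ℤ) {q : ℕ}
    (hq : q.Prime) (h : q ∉ badSet N p W) : ¬ q ∣ N :=
  fun h' => h (mem_badSet_of_dvd hN p W hq h')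

theorem good_of_not_mem_badSet (N p : ℕ) {W : WeierstrassCurve ℤ} (hΔ : W.Δ ≠ 0) {q : ℕ}
    (hq : q.Prime) (h : q ∉ badSet N p W) : W.IsGoodPrimeFor q :=
  not_not.1 fun h' => h (mem_badSet_of_bad N p hΔ hq h')

theorem ne_of_not_mem_badSet (N p : ℕ) (W : WeierstrassCurve ℤ) {q : ℕ}
    (h : q ∉ badSet N p W) : q ≠ p :=
  fun h' => h (h' ▸ mem_badSet_self N p W)

/-- The discriminant of an integral model of the Frey curve is nonzero. -/
theorem frey_model_Δ_ne_zero (P : FreyPackage) {W : WeierstrassCurve ℤ}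
    (hW : W.IsIntegralModelOf P.freyCurve) : W.Δ ≠ 0 := by
  obtain ⟨C, hC⟩ := hW
  intro h
  have h1 : (W.map (Int.castRingHom ℚ)).Δ = 0 := by
    rw [WeierstrassCurve.map_Δ, h, _root_.map_zero]
  rw [← hC, WeierstrassCurve.variableChange_Δ] at h1
  have h2 : P.freyCurve.Δ ≠ 0 := by
    rw [← Fermat.Agent.FreyLib.freyCurveInt_map P, WeierstrassCurve.map_Δ]
    simpa using Fermat.Agent.FreyLib.freyCurveInt_Δ_ne_zero P
  have h3 : ((C.u⁻¹ : ℚˣ) : ℚ) ^ 12 ≠ 0 := pow_ne_zero _ (Units.ne_zero _)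
  exact (mul_ne_zero h3 h2) h1

/-- **Block G, abstract wiring**: from the dichotomy (G1) and the embedding (G3). -/
theorem blockG_of (P : FreyPackage) [NeZero P.p] {N N₀ : ℕ} [NeZero N] [NeZero N₀]
    (h : N = N₀ * P.p) (D : ALData) (hM : N = D.Q * D.R)
    (hmod : P.ModularRepOfLevel N)
    (hG1 : ∀ (S : Finset ℕ) (a : ℕ → ℤ) (f : CuspForm (CongruenceSubgroup.Gamma0 N) 2)
      (𝔪 : Ideal (integralClosure ℤ ℂ)), f.IsNormalizedEigenform → 𝔪.IsMaximal →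
      (P.p : integralClosure ℤ ℂ) ∈ 𝔪 → (∀ q : ℕ, q.Prime → q ∣ N → q ∈ S) →
      (∀ ℓ : ℕ, ℓ.Prime → ℓ ∉ S →
        ∃ α : integralClosure ℤ ℂ, (α : ℂ) = ModularFormClass.qCoeff f ℓ ∧
          α - ((a ℓ : ℤ) : integralClosure ℤ ℂ) ∈ 𝔪) →
      Fermat.Agent.R38Ret.RetOutput P.p N₀ S a ∨ ∃ y ∈ newEigenAt h D hM S a, y ≠ 0)
    (hG3 : ∀ (W : WeierstrassCurve ℤ) (S : Finset ℕ), W.IsIntegralModelOf P.freyCurve →
      P.p ∈ S → (∀ q : ℕ, q.Prime → q ∣ N → q ∈ S) →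
      (∀ q : ℕ, q.Prime → ¬ W.IsGoodPrimeFor q → q ∈ S) →
      (∃ y ∈ newEigenAt h D hM S (fun ℓ => W.apOfModel ℓ), y ≠ 0) →
      FreyEmbedsIn P.freyCurve P.p (newEigenAt h D hM S (fun ℓ => W.apOfModel ℓ))) :
    P.ModularRepOfLevel N₀ ∨
      ∃ (W : WeierstrassCurve ℤ) (S : Finset ℕ), W.IsIntegralModelOf P.freyCurve ∧
        P.p ∈ S ∧ (∀ q : ℕ, q.Prime → q ∣ N → q ∈ S) ∧
        (∀ q : ℕ, q.Prime → ¬ W.IsGoodPrimeFor q → q ∈ S) ∧
        FreyEmbedsIn P.freyCurve P.p (newEigenAt h D hM S (fun ℓ => W.apOfModel ℓ)) := by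
  obtain ⟨f, W, 𝔪, hf, hW, h𝔪, hp𝔪, hcong⟩ := hmod
  have hΔ : W.Δ ≠ 0 := frey_model_Δ_ne_zero P hW
  have hN : N ≠ 0 := NeZero.ne N
  have hS1 : ∀ q : ℕ, q.Prime → q ∣ N → q ∈ badSet N P.p W :=
    fun q hq hqN => mem_badSet_of_dvd hN P.p W hq hqN
  have hS2 : ∀ q : ℕ, q.Prime → ¬ W.IsGoodPrimeFor q → q ∈ badSet N P.p W :=
    fun q hq hqW => mem_badSet_of_bad N P.p hΔ hq hqW
  rcases hG1 (badSet N P.p W) (fun ℓ => W.apOfModel ℓ) f 𝔪 hf h𝔪 hp𝔪 hS1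
    (fun ℓ hℓ hℓS => hcong ℓ hℓ (good_of_not_mem_badSet N P.p hΔ hℓ hℓS)
      (not_dvd_of_not_mem_badSet hN P.p W hℓ hℓS) (ne_of_not_mem_badSet N P.p W hℓS)) with
    hret | hy
  · exact Or.inl (modularRepOfLevel_of_retOutput P W hW N₀ (badSet N P.p W)
      (fun ℓ => W.apOfModel ℓ) (fun _ _ _ _ _ => rfl) hret)
  · exact Or.inr ⟨W, badSet N P.p W, hW, mem_badSet_self N P.p W, hS1, hS2,
      hG3 W (badSet N P.p W) hW (mem_badSet_self N P.p W) hS1 hS2 hy⟩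

end Fermat.Agent.R38
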