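/-
Row 38 (S44), block G (global, sub-architect helper56), seat G1 (helper69): the `p`-NEW eigen-class
with coefficients in `𝔽_p`.

`N = N₀ * p`, `p ∤ N₀`, `χ : heckeAlgebra N 2 S →+* ZMod p` a mod-`p` eigen-system of level `N`
which does NOT occur at level `N₀` (`S33.OccursAtLevel`).  Then there is a NONZERO point
`y ∈ J₀(N)(ℚ̄)[p]` with

* `α_* y = 0` and `β_* y = 0`   (`S33.pnewAlpha`, `S33.pnewBeta`: the two degeneracy maps to level `N₀`),
* `T_ℓ y = a • y` for every prime `ℓ ∤ N`, `ℓ ∉ S` and every integer `a` lifting `χ (T_ℓ)`.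

Route: `F3EP.exists_eigenvector_homPar'` (eigenvector `x₀ ∈ 𝔽_p ⊗ Hom_par`), `S33.pnew_vector_cast`
(P-NEW: `x₀` is killed by the two corestrictions), `x₀ = 1 ⊗ c₀`, `y := κ_p c₀` (`F3Deg.kappaC`),
`ker κ_p = p · Hom_par`, and `1 ⊗ c = 0 ⟺ c ∈ p · Hom_par` in `𝔽_p ⊗ H` for a free `ℤ`-module `H`.
-/
import Mathlib
import Fermat.Agent.S33.PNew

set_option autoImplicit false
set_option linter.style.haveILetI false
set_option linter.unusedSectionVars false
set_option linter.unusedVariables false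

noncomputable section

namespace Fermat.Agent.R38

open CongruenceSubgroup ModularFormClass ModularCurve ModularCurve.Period AlgebraicCurve
open Fermat.Agent.F3EC Fermat.Agent.F3EP Fermat.Agent.F3 Fermat.Agent.F3Deg Fermat.Agent.F3DegW
  Fermat.Agent.LDeg Fermat.Agent.S35 Fermat.Agent.S33
open Fermat.Agent.AtkinLehner (ALData)
open CuspForm
open scoped TensorProduct

local notation "Qb" => AlgebraicClosure ℚ

/-! ### `𝔽_p ⊗ H` for a free `ℤ`-module `H` -/

section Tensor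

variable {p : ℕ} {H : Type*} [AddCommGroup H]

/-- every element of `ZMod p ⊗ H` is of the form `1 ⊗ c`. -/
theorem g1_exists_one_tmul [NeZero p] (x : ZMod p ⊗[ℤ] H) : ∃ c : H, x = (1 : ZMod p) ⊗ₜ[ℤ] c := by
  induction x using TensorProduct.induction_on with
  | zero => exact ⟨0, by rw [TensorProduct.tmul_zero]⟩
  | tmul a c =>
    refine ⟨(a.val : ℤ) • c, ?_⟩
    rw [← TensorProduct.smul_tmul, zsmul_eq_mul, mul_one]
    congr 1
    simp
  | add x y hx hy =>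
    obtain ⟨c, rfl⟩ := hx
    obtain ⟨d, rfl⟩ := hy
    exact ⟨c + d, by rw [TensorProduct.tmul_add]⟩

/-- `1 ⊗ (p • c) = 0` in `ZMod p ⊗ H`. -/
theorem g1_one_tmul_smul (c : H) : (1 : ZMod p) ⊗ₜ[ℤ] ((p : ℤ) • c) = 0 := by
  rw [← TensorProduct.smul_tmul, zsmul_eq_mul, mul_one]
  simp

/-- `1 ⊗ c = 0` in `ZMod p ⊗ H` iff `c ∈ p H`, for a free `ℤ`-module `H`. -/
theorem g1_one_tmul_eq_zero [Module.Free ℤ H] {c : H} (h : (1 : ZMod p) ⊗ₜ[ℤ] c = 0) :
    ∃ c' : H, c = (p : ℤ) • c' := by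
  classical
  set b := Module.Free.chooseBasis ℤ H with hb
  have hrepr : ∀ i, ((b.repr c i : ℤ) : ZMod p) = 0 := by
    intro i
    have h1 := congrArg (fun z => (Algebra.TensorProduct.basis (ZMod p) b).repr z i) h
    simp only [Algebra.TensorProduct.basis_repr_tmul, map_zero, Finsupp.coe_zero, Pi.zero_apply,
      one_smul, Finsupp.mapRange_apply] at h1
    simpa using h1
  have hdvd : ∀ i, (p : ℤ) ∣ b.repr c i := fun i =>
    (ZMod.intCast_zmod_eq_zero_iff_dvd _ p).mp (hrepr i)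
  refine ⟨b.repr.symm ((b.repr c).mapRange (fun z => z / (p : ℤ)) (by simp)), ?_⟩
  apply b.repr.injective
  rw [map_smul, LinearEquiv.apply_symm_apply]
  ext i
  rw [Finsupp.smul_apply, Finsupp.mapRange_apply, smul_eq_mul, Int.mul_ediv_cancel' (hdvd i)]

end Tensor

/-! ### the class -/

section Class

variable {N N₀ p : ℕ} [NeZero N] [NeZero N₀] [NeZero p]

/-- **G1 (core)**: a mod-`p` eigen-system of level `N = N₀ p` which does not occur at level `N₀`
has a nonzero `p`-new eigen-class in `J₀(N)(ℚ̄)[p]`. -/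
theorem g1_exists_newClass (h : N = N₀ * p) (hp : p.Prime) (hpN : ¬ p ∣ N₀)
    (D : ALData) (hQ : D.Q = p) (hR : D.R = N₀) (hM : N = D.Q * D.R)
    (S : Finset ℕ) (hS : ∀ r : ℕ, r.Prime → r ∣ N → r ∈ S)
    (χ : CuspForm.heckeAlgebra N 2 (↑S : Set ℕ) →+* ZMod p)
    (hχ : ¬ OccursAtLevel N₀ N S χ) :
    ∃ y : Jtors N p, y ≠ 0 ∧ pnewAlpha h (y : JZero N) = 0 ∧
      pnewBeta h D hM (y : JZero N) = 0 ∧
      ∀ (ℓ : ℕ) (hℓ : ℓ.Prime) (hℓN : ¬ ℓ ∣ N) (hℓS : ℓ ∉ (↑S : Set ℕ)) (a : ℤ),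
        (a : ZMod p) = χ (CuspForm.heckeAlgebra.T hℓ hℓN hℓS) →
          heckeTors N p ⟨ℓ, hℓ⟩ y = a • y := by
  haveI : Fact p.Prime := ⟨hp⟩
  obtain ⟨x₀, hx₀, hx⟩ := exists_eigenvector_homPar' (N := N) (S := (↑S : Set ℕ))
    (fun q hq hqN => Finset.mem_coe.mpr (hS q hq hqN)) χ
  have hnew := pnew_vector_cast h hp hpN S hS (ZMod p) χ hχ x₀ hx
  obtain ⟨c₀, rfl⟩ := g1_exists_one_tmul x₀
  -- torsion: `p • κ_p c = 0`
  have htors : ∀ {M : ℕ} [NeZero M] (c : HomPar M), (p : ℤ) • (kappaC M p c) = 0 := by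
    intro M _ c
    apply Subtype.ext
    have := (kappaC M p c).2
    rw [Submodule.mem_torsionBy_iff] at this
    exact this
  refine ⟨kappaC N p c₀, ?_, ?_, ?_, ?_⟩
  · intro h0
    obtain ⟨c', hc'⟩ := kappaC_ker hp.pos h0
    apply hx₀
    rw [hc']
    exact g1_one_tmul_smul c'
  · have h1 := hnew.1
    rw [LinearMap.baseChange_tmul] at h1
    obtain ⟨c', hc'⟩ := g1_one_tmul_eq_zero h1
    show pushAlphaAt h ((kappaC N p c₀ : Jtors N p) : JZero N) = 0
    rw [pushAlphaAt_kappaC h hp hpN p c₀, hc', map_zsmul (kappaC N₀ p) (p : ℤ) c', htors c']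
    rfl
  · have h1 := hnew.2
    rw [LinearMap.baseChange_tmul] at h1
    obtain ⟨c', hc'⟩ := g1_one_tmul_eq_zero h1
    show (pushAlphaAt h).comp (pushWAt D hM) ((kappaC N p c₀ : Jtors N p) : JZero N) = 0
    rw [AddMonoidHom.comp_apply, pushAlphaAt_pushWAt_kappaC h hp hpN D hQ hR hM p c₀, hc',
      map_zsmul (kappaC N₀ p) (p : ℤ) c', htors c']
    rfl
  · intro ℓ hℓ hℓN hℓS a ha
    have h1 := hx ℓ hℓ hℓN hℓS
    rw [LinearMap.baseChange_tmul, ← ha] at h1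
    have h2 : (1 : ZMod p) ⊗ₜ[ℤ] (heckeHom N ⟨ℓ, hℓ⟩ c₀ - a • c₀) = 0 := by
      rw [TensorProduct.tmul_sub, h1, sub_eq_zero, TensorProduct.smul_tmul', smul_eq_mul, mul_one,
        ← TensorProduct.smul_tmul, zsmul_eq_mul, mul_one]
    obtain ⟨c', hc'⟩ := g1_one_tmul_eq_zero h2
    rw [← kappaC_hecke p ⟨ℓ, hℓ⟩ hℓN c₀]
    have h3 : heckeHom N ⟨ℓ, hℓ⟩ c₀ = a • c₀ + (p : ℤ) • c' := by
      rw [← hc']
      abel
    have e1 : kappaC N p (a • c₀) = a • kappaC N p c₀ := map_zsmul (kappaC N p) a c₀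
    have e2 : kappaC N p ((p : ℤ) • c') = (p : ℤ) • kappaC N p c' :=
      map_zsmul (kappaC N p) (p : ℤ) c'
    have e3 : kappaC N p (a • c₀ + (p : ℤ) • c') =
        kappaC N p (a • c₀) + kappaC N p ((p : ℤ) • c') := (kappaC N p).map_add _ _
    have e4 : kappaC N p (a • c₀) + kappaC N p ((p : ℤ) • c') =
        a • kappaC N p c₀ + (p : ℤ) • kappaC N p c' := congrArg₂ (· + ·) e1 e2
    have e5 : a • kappaC N p c₀ + (p : ℤ) • kappaC N p c' = a • kappaC N p c₀ + 0 :=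
      congrArg (fun z => a • kappaC N p c₀ + z) (htors c')
    exact (congrArg (kappaC N p) h3).trans (e3.trans (e4.trans (e5.trans (add_zero _))))

end Class

end Fermat.Agent.R38
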