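/-
Row 38 (S44), block G (global, sub-architect helper56), seat G1 (helper69): the MOD-`p` DICHOTOMY.

`N` a level, `i : S35.NewIdx N 0` a prime `p = i.1` with `p ‖ N`, `S ⊇ {q ∣ N}` a finite set of primes,
`a : ℕ → ℤ` a system of integers (`a ℓ = a_ℓ(W)` for the curve), `f` a normalised eigenform of level
`N` with `a_ℓ(f) ≡ a ℓ` modulo a maximal ideal `𝔪 ∋ p` of `ℤ̄` for all primes `ℓ ∉ S`.  Then

* EITHER there is a normalised eigenform `g` of level `N / p` and a maximal ideal `𝔪' ∋ p` of `ℤ̄`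
  with `a_ℓ(g) ≡ a ℓ` modulo `𝔪'` for all primes `ℓ ∉ S` (`= R38Ret.RetOutput`),
* OR there is a nonzero point `y ∈ J₀(N)(ℚ̄)` with `p y = 0`, `S33.newUAt i y = 0` (`α_* y = β_* y = 0`),
  `T_ℓ y = a ℓ • y` for all primes `ℓ ∉ S` (`= ∃ y ∈ newEigenspace, y ≠ 0`).

Route: the eigen-character of `f` (`S35SMO.eigenChar`) has integral values; modulo `𝔪` its image
lies in the prime field (adjoin induction), whence `χ : 𝕋_N^S → ZMod p` with `χ (T_ℓ) = a ℓ`.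
If `χ` occurs at level `N / p` (`S33.OccursAtLevel`), the ideal `(p, T_ℓ - a ℓ)` of the Hecke algebra
of level `N / p` is proper and Deligne–Serre (`R38Ret.chi_goingUp`, helper17) gives `g`.
If not, `g1_exists_newClass` (`R38/G/NewClass.lean`) gives `y`.
-/
import Mathlib
import Fermat.Agent.R38.G.NewClass
import Fermat.Agent.R38.Ret.ChiCore
import Fermat.Agent.R38.Ret.Defs
import Fermat.Agent.S35.SMO.EigenChar
import Fermat.Agent.S33.NewDefs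
import Fermat.Agent.S22

set_option autoImplicit false
set_option linter.style.haveILetI false
set_option linter.unusedSectionVars false
set_option linter.unusedVariables false

noncomputable section

namespace Fermat.Agent.R38

open CongruenceSubgroup ModularFormClass ModularCurve AlgebraicCurve
open Fermat.Agent.F3 Fermat.Agent.S35 Fermat.Agent.S33
open Fermat.Agent.AtkinLehner (ALData)
open CuspForm

local notation "Zbar" => integralClosure ℤ ℂ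

/-! ### the eigen-character with values in `ℤ̄` -/

section Lam

variable {N : ℕ} [NeZero N]

/-- the eigen-character of a normalised eigenform, with values in `ℤ̄`. -/
theorem g1_exists_lam {f : CuspForm (Gamma0 N) 2} (hf : f.IsNormalizedEigenform) (S : Set ℕ) :
    ∃ lam : heckeAlgebra N 2 S →+* Zbar,
      ∀ (ℓ : ℕ) (hℓ : ℓ.Prime) (hℓN : ¬ ℓ ∣ N) (hℓS : ℓ ∉ S),
        ((lam (heckeAlgebra.T hℓ hℓN hℓS) : Zbar) : ℂ) = qCoeff f ℓ := by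
  haveI hfin : Module.Finite ℤ (heckeAlgebra N 2 S) := Fermat.Agent.S22.result N 2 S
  have hint : ∀ t : heckeAlgebra N 2 S, IsIntegral ℤ (Fermat.Agent.S35SMO.eigenChar hf S t) := by
    intro t
    have ht : IsIntegral ℤ t := Algebra.IsIntegral.isIntegral t
    exact ht.map (Fermat.Agent.S35SMO.eigenChar hf S).toIntAlgHom
  refine ⟨(Fermat.Agent.S35SMO.eigenChar hf S).codRestrict (integralClosure ℤ ℂ).toSubring hint,
    ?_⟩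
  intro ℓ hℓ hℓN hℓS
  exact Fermat.Agent.S35SMO.eigenChar_T hf hℓ hℓN hℓS

end Lam

/-! ### the character with values in `ZMod p` -/

section Chi

variable {N : ℕ} [NeZero N]

/-- A ring homomorphism from the Hecke algebra (away from `S ⊇ {q ∣ N}`) to a ring `k` of
characteristic `p` whose values at the `T_ℓ` are (images of) integers takes its values in the
image of `ZMod p`. -/
theorem g1_range_le {S : Set ℕ} (hNS : ∀ q : ℕ, q.Prime → q ∣ N → q ∈ S)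
    {k : Type*} [CommRing k] (R : Subring k) (φ : heckeAlgebra N 2 S →+* k)
    (hφ : ∀ (ℓ : ℕ) (hℓ : ℓ.Prime) (hℓN : ¬ ℓ ∣ N) (hℓS : ℓ ∉ S),
      φ (heckeAlgebra.T hℓ hℓN hℓS) ∈ R) (t : heckeAlgebra N 2 S) : φ t ∈ R := by
  obtain ⟨x, hx⟩ := t
  induction hx using Algebra.adjoin_induction with
  | mem x hx =>
    rcases hx with ⟨ℓ, hℓ, hℓN, hℓS, rfl⟩ | ⟨q, hqN, hq, hqS, rfl⟩
    · exact hφ ℓ hℓ hℓN hℓS
    · exact absurd (hNS q hq hqN) hqS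
  | algebraMap r =>
    have : (⟨algebraMap ℤ _ r, Subalgebra.algebraMap_mem _ r⟩ : heckeAlgebra N 2 S) =
        algebraMap ℤ (heckeAlgebra N 2 S) r := rfl
    rw [this, eq_intCast, map_intCast]
    exact intCast_mem R r
  | add x y hx hy hx' hy' =>
    have : (⟨x + y, Subalgebra.add_mem _ hx hy⟩ : heckeAlgebra N 2 S) = ⟨x, hx⟩ + ⟨y, hy⟩ := rfl
    rw [this, map_add]
    exact R.add_mem hx' hy'
  | mul x y hx hy hx' hy' =>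
    have : (⟨x * y, Subalgebra.mul_mem _ hx hy⟩ : heckeAlgebra N 2 S) = ⟨x, hx⟩ * ⟨y, hy⟩ := rfl
    rw [this, map_mul]
    exact R.mul_mem hx' hy'

/-- **The mod-`p` character** of a system `a ℓ` of integers congruent to an eigenform modulo a
maximal ideal `𝔪 ∋ p` of `ℤ̄`. -/
theorem g1_exists_chi {S : Set ℕ} (hNS : ∀ q : ℕ, q.Prime → q ∣ N → q ∈ S)
    {p : ℕ} (hp : p.Prime) (a : ℕ → ℤ)
    (lam : heckeAlgebra N 2 S →+* Zbar) (𝔪 : Ideal Zbar) (h𝔪 : 𝔪.IsMaximal)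
    (hp𝔪 : (p : Zbar) ∈ 𝔪)
    (hcong : ∀ (ℓ : ℕ) (hℓ : ℓ.Prime) (hℓN : ¬ ℓ ∣ N) (hℓS : ℓ ∉ S),
      lam (heckeAlgebra.T hℓ hℓN hℓS) - ((a ℓ : ℤ) : Zbar) ∈ 𝔪) :
    ∃ χ : heckeAlgebra N 2 S →+* ZMod p,
      ∀ (ℓ : ℕ) (hℓ : ℓ.Prime) (hℓN : ¬ ℓ ∣ N) (hℓS : ℓ ∉ S),
        χ (heckeAlgebra.T hℓ hℓN hℓS) = ((a ℓ : ℤ) : ZMod p) := by
  haveI : Fact p.Prime := ⟨hp⟩
  letI : Field (Zbar ⧸ 𝔪) := Ideal.Quotient.field 𝔪
  have hp0 : ((p : ℕ) : Zbar ⧸ 𝔪) = 0 := by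
    have := Ideal.Quotient.eq_zero_iff_mem.mpr hp𝔪
    rwa [map_natCast] at this
  haveI : CharP (Zbar ⧸ 𝔪) p := by
    have hdvd : ringChar (Zbar ⧸ 𝔪) ∣ p := (ringChar.spec (Zbar ⧸ 𝔪) p).mp hp0
    rcases (Nat.dvd_prime hp).mp hdvd with h1 | h1
    · exact absurd h1 (CharP.ringChar_ne_one)
    · rw [← h1]
      exact ringChar.charP _
  let ι : ZMod p →+* (Zbar ⧸ 𝔪) := ZMod.castHom (dvd_refl p) (Zbar ⧸ 𝔪)
  have hι : Function.Injective ι := ι.injective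
  let φ : heckeAlgebra N 2 S →+* (Zbar ⧸ 𝔪) := (Ideal.Quotient.mk 𝔪).comp lam
  have hφT : ∀ (ℓ : ℕ) (hℓ : ℓ.Prime) (hℓN : ¬ ℓ ∣ N) (hℓS : ℓ ∉ S),
      φ (heckeAlgebra.T hℓ hℓN hℓS) = ι ((a ℓ : ℤ) : ZMod p) := by
    intro ℓ hℓ hℓN hℓS
    have h1 := Ideal.Quotient.eq_zero_iff_mem.mpr (hcong ℓ hℓ hℓN hℓS)
    rw [map_sub, sub_eq_zero, map_intCast] at h1
    rw [map_intCast]
    exact h1
  have hrange : ∀ t, φ t ∈ ι.range :=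
    g1_range_le hNS ι.range φ (fun ℓ hℓ hℓN hℓS => ⟨_, (hφT ℓ hℓ hℓN hℓS).symm⟩)
  choose ψ hψ using hrange
  have hone : ψ 1 = 1 := hι (by rw [hψ, map_one, map_one])
  have hzero : ψ 0 = 0 := hι (by rw [hψ, map_zero, map_zero])
  have hmul : ∀ s t, ψ (s * t) = ψ s * ψ t := fun s t =>
    hι (by rw [hψ, map_mul, map_mul, hψ, hψ])
  have hadd : ∀ s t, ψ (s + t) = ψ s + ψ t := fun s t =>
    hι (by rw [hψ, map_add, map_add, hψ, hψ])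
  let χ : heckeAlgebra N 2 S →+* ZMod p :=
    { toFun := ψ
      map_one' := hone
      map_mul' := hmul
      map_zero' := hzero
      map_add' := hadd }
  refine ⟨χ, ?_⟩
  intro ℓ hℓ hℓN hℓS
  exact hι ((hψ _).trans (hφT ℓ hℓ hℓN hℓS))

end Chi

/-! ### the dichotomy -/

section Dichotomy

variable {N N₀ p : ℕ} [NeZero N] [NeZero N₀] [NeZero p]

/-- **G1 (mod-`p` dichotomy), AT form** (`N = N₀ * p`, explicit Atkin–Lehner data `D`):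
either the system `a` occurs at level `N₀` (`R38Ret.RetOutput`), or there is a nonzero `p`-new
eigen-class `y ∈ J₀(N)(ℚ̄)[p]` (`y ∈ newEigenAt h D hM S a`, unfolded). -/
theorem g1_dichotomy_at (h : N = N₀ * p) (hp : p.Prime) (hpN : ¬ p ∣ N₀)
    (D : ALData) (hQ : D.Q = p) (hR : D.R = N₀) (hM : N = D.Q * D.R)
    (S : Finset ℕ) (hS : ∀ q : ℕ, q.Prime → q ∣ N → q ∈ S) (a : ℕ → ℤ)
    (f : CuspForm (Gamma0 N) 2) (hf : f.IsNormalizedEigenform)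
    (𝔪 : Ideal Zbar) (h𝔪 : 𝔪.IsMaximal) (hp𝔪 : ((p : ℕ) : Zbar) ∈ 𝔪)
    (hcong : ∀ ℓ : ℕ, ℓ.Prime → ℓ ∉ S →
      ∃ α : Zbar, (α : ℂ) = qCoeff f ℓ ∧ α - ((a ℓ : ℤ) : Zbar) ∈ 𝔪) :
    Fermat.Agent.R38Ret.RetOutput p N₀ S a ∨
      ∃ y : JZero N, y ≠ 0 ∧ (p : ℕ) • y = 0 ∧ pnewAlpha h y = 0 ∧ pnewBeta h D hM y = 0 ∧
        ∀ ℓ : Nat.Primes, (ℓ : ℕ) ∉ S → ¬ (ℓ : ℕ) ∣ N →
          heckeOperatorBar N ℓ y = (a ℓ : ℤ) • y := by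
  classical
  haveI : Fact p.Prime := ⟨hp⟩
  have hS' : ∀ q : ℕ, q.Prime → q ∣ N → q ∈ (↑S : Set ℕ) := fun q hq hqN =>
    Finset.mem_coe.mpr (hS q hq hqN)
  obtain ⟨lam, hlam⟩ := g1_exists_lam hf (↑S : Set ℕ)
  have hcong' : ∀ (ℓ : ℕ) (hℓ : ℓ.Prime) (hℓN : ¬ ℓ ∣ N) (hℓS : ℓ ∉ (↑S : Set ℕ)),
      lam (heckeAlgebra.T hℓ hℓN hℓS) - ((a ℓ : ℤ) : Zbar) ∈ 𝔪 := by
    intro ℓ hℓ hℓN hℓS
    obtain ⟨α, hα, hα𝔪⟩ := hcong ℓ hℓ (fun h => hℓS (Finset.mem_coe.mpr h))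
    have : lam (heckeAlgebra.T hℓ hℓN hℓS) = α := Subtype.ext ((hlam ℓ hℓ hℓN hℓS).trans hα.symm)
    rw [this]
    exact hα𝔪
  obtain ⟨χ, hχ⟩ := g1_exists_chi hS' hp a lam 𝔪 h𝔪 hp𝔪 hcong'
  by_cases hocc : OccursAtLevel N₀ N S χ
  · left
    obtain ⟨χ₀, hχ₀⟩ := hocc
    have hne : Ideal.span ({((p : ℕ) : heckeAlgebra N₀ 2 (↑S : Set ℕ))} ∪
        {t | ∃ (ℓ : ℕ) (hℓ : ℓ.Prime) (hℓN : ¬ ℓ ∣ N₀) (hℓS : ℓ ∉ (↑S : Set ℕ)),
          t = heckeAlgebra.T hℓ hℓN hℓS - (a ℓ : heckeAlgebra N₀ 2 (↑S : Set ℕ))}) ≠ ⊤ := by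
      intro htop
      have hle : Ideal.span ({((p : ℕ) : heckeAlgebra N₀ 2 (↑S : Set ℕ))} ∪
          {t | ∃ (ℓ : ℕ) (hℓ : ℓ.Prime) (hℓN : ¬ ℓ ∣ N₀) (hℓS : ℓ ∉ (↑S : Set ℕ)),
            t = heckeAlgebra.T hℓ hℓN hℓS - (a ℓ : heckeAlgebra N₀ 2 (↑S : Set ℕ))}) ≤
          RingHom.ker χ₀ := by
        rw [Ideal.span_le]
        rintro t (ht | ⟨ℓ, hℓ, hℓN₀, hℓS, rfl⟩)
        · rw [Set.mem_singleton_iff] at ht
          rw [ht, SetLike.mem_coe, RingHom.mem_ker, map_natCast]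
          exact ZMod.natCast_self _
        · have hℓN : ¬ ℓ ∣ N := fun h => hℓS (hS' ℓ hℓ h)
          rw [SetLike.mem_coe, RingHom.mem_ker, map_sub, map_intCast,
            hχ₀ ℓ hℓ hℓN hℓN₀ hℓS, hχ ℓ hℓ hℓN hℓS, sub_self]
      rw [htop, top_le_iff] at hle
      exact RingHom.ker_ne_top χ₀ hle
    obtain ⟨g, 𝔪', hg, h𝔪', hp𝔪', hg𝔪'⟩ :=
      Fermat.Agent.R38Ret.chi_goingUp (↑S : Set ℕ) p a hne
    exact ⟨g, 𝔪', hg, h𝔪', hp𝔪', fun ℓ hℓ hℓS hℓN =>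
      hg𝔪' ℓ hℓ hℓN (fun h => hℓS (Finset.mem_coe.mp h))⟩
  · right
    obtain ⟨y, hy0, hyA, hyB, hyT⟩ := g1_exists_newClass h hp hpN D hQ hR hM S hS χ hocc
    refine ⟨(y : JZero N), fun h => hy0 (Subtype.ext h), ?_, hyA, hyB, ?_⟩
    · have := y.2
      rw [Submodule.mem_torsionBy_iff] at this
      rw [← natCast_zsmul]
      exact this
    · intro ℓ hℓS hℓN
      have hℓS' : (ℓ : ℕ) ∉ (↑S : Set ℕ) := fun h => hℓS (Finset.mem_coe.mp h)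
      have h1 := hyT ℓ ℓ.2 hℓN hℓS' (a ℓ) (hχ ℓ ℓ.2 hℓN hℓS').symm
      exact congrArg (Subtype.val) h1

end Dichotomy

section DichotomyIdx

variable {N : ℕ} [NeZero N]

/-- **G1 (mod-`p` dichotomy), index form** (`p = i.1 ‖ N`, `S33.newUAt i`). -/
theorem g1_dichotomy (i : Fermat.Agent.S35.NewIdx N 0) (S : Finset ℕ)
    (hS : ∀ q : ℕ, q.Prime → q ∣ N → q ∈ S) (a : ℕ → ℤ)
    (f : CuspForm (Gamma0 N) 2) (hf : f.IsNormalizedEigenform)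
    (𝔪 : Ideal Zbar) (h𝔪 : 𝔪.IsMaximal) (hp𝔪 : ((i.1 : ℕ) : Zbar) ∈ 𝔪)
    (hcong : ∀ ℓ : ℕ, ℓ.Prime → ℓ ∉ S →
      ∃ α : Zbar, (α : ℂ) = qCoeff f ℓ ∧ α - ((a ℓ : ℤ) : Zbar) ∈ 𝔪) :
    Fermat.Agent.R38Ret.RetOutput i.1 (N / i.1) S a ∨
      ∃ y : JZero N, y ≠ 0 ∧ (i.1 : ℕ) • y = 0 ∧ newUAt i y = 0 ∧
        ∀ ℓ : Nat.Primes, (ℓ : ℕ) ∉ S → ¬ (ℓ : ℕ) ∣ N →
          heckeOperatorBar N ℓ y = (a ℓ : ℤ) • y := by
  haveI := i.neZero_N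
  haveI := i.neZero_q
  rcases g1_dichotomy_at i.level_eq i.prime i.not_dvd_N i.data i.data_Q i.data_R i.level_eq_data
    S hS a f hf 𝔪 h𝔪 hp𝔪 hcong with h | ⟨y, hy0, hpy, hyA, hyB, hyT⟩
  · exact Or.inl h
  · exact Or.inr ⟨y, hy0, hpy, (newUAt_eq_zero_iff i y).mpr ⟨hyA, hyB⟩, hyT⟩

end DichotomyIdx

end Fermat.Agent.R38
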