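/-
Row 38 (S44), block G, junction **J-G1** (helper56, from helper69's `g1_dichotomy_at`):
the modular representation of level `N = p N₀` (`N = D.Q * D.R`, `D.Q = p`) either occurs at level
`N₀` modulo `p` (`R38Ret.RetOutput`), or has a nonzero `p`-new eigen-class.

`jg1_at` is the statement `SpJG1` of `R38/Spine.lean`, unfolded (`spIsNewEigen D S a y` is
`y ∈ newEigenAt (mul_comm D.Q D.R) D rfl S a` and `SpSOK` is the conjunction below, by `Iff.rfl`).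
-/
import Fermat.Agent.R38.G.Main
import Fermat.Agent.R38.G.NewClassW

set_option autoImplicit false
set_option linter.style.haveILetI false
set_option linter.unusedSectionVars false

noncomputable section

namespace Fermat.Agent.R38

open ModularCurve AlgebraicCurve CuspForm WeierstrassCurve
open Fermat.Agent.AtkinLehner (ALData)

local notation "Qb" => (AlgebraicClosure ℚ)

/-- **J-G1**, unfolded. -/
theorem jg1_at (P : FreyPackage) (D : ALData) [NeZero D.Q] [NeZero D.R] [NeZero (D.Q * D.R)]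
    (hQ : D.Q = P.p) (hQR : ¬ D.Q ∣ D.R) (hmod : P.ModularRepOfLevel (D.Q * D.R)) :
    ∃ (W : WeierstrassCurve ℤ) (S : Finset ℕ), W.IsIntegralModelOf P.freyCurve ∧
      (P.p ∈ S ∧ (∀ q : ℕ, q.Prime → q ∣ D.Q * D.R → q ∈ S) ∧
        ∀ ℓ : ℕ, ℓ.Prime → ¬ W.IsGoodPrimeFor ℓ → ℓ ∈ S) ∧
      (Fermat.Agent.R38Ret.RetOutput P.p D.R S (fun ℓ => W.apOfModel ℓ) ∨
        ∃ y : JZero (D.Q * D.R), y ≠ 0 ∧
          y ∈ newEigenAt (mul_comm D.Q D.R) D rfl S (fun ℓ => W.apOfModel ℓ)) := by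
  obtain ⟨f, W, 𝔪, hf, hW, h𝔪, hp𝔪, hcong⟩ := hmod
  have hΔ : W.Δ ≠ 0 := frey_model_Δ_ne_zero P hW
  have hN : D.Q * D.R ≠ 0 := NeZero.ne _
  have hp : D.Q.Prime := hQ ▸ P.pp
  have hS1 : ∀ q : ℕ, q.Prime → q ∣ D.Q * D.R → q ∈ badSet (D.Q * D.R) P.p W :=
    fun q hq hqN => mem_badSet_of_dvd hN P.p W hq hqN
  have hS2 : ∀ q : ℕ, q.Prime → ¬ W.IsGoodPrimeFor q → q ∈ badSet (D.Q * D.R) P.p W :=
    fun q hq hqW => mem_badSet_of_bad (D.Q * D.R) P.p hΔ hq hqW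
  have hp𝔪' : ((D.Q : ℕ) : integralClosure ℤ ℂ) ∈ 𝔪 := by rw [hQ]; exact hp𝔪
  refine ⟨W, badSet (D.Q * D.R) P.p W, hW, ⟨mem_badSet_self _ _ _, hS1, hS2⟩, ?_⟩
  rcases g1_dichotomy_at (N := D.Q * D.R) (N₀ := D.R) (p := D.Q) (mul_comm D.Q D.R) hp hQR D rfl
    rfl rfl (badSet (D.Q * D.R) P.p W) hS1 (fun ℓ => W.apOfModel ℓ) f hf 𝔪 h𝔪 hp𝔪'
    (fun ℓ hℓ hℓS => hcong ℓ hℓ (good_of_not_mem_badSet (D.Q * D.R) P.p hΔ hℓ hℓS)
      (not_dvd_of_not_mem_badSet hN P.p W hℓ hℓS)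
      (ne_of_not_mem_badSet (D.Q * D.R) P.p W hℓS)) with hret | ⟨y, hy0, h1, h2, h3, h4⟩
  · exact Or.inl (hQ ▸ hret)
  · exact Or.inr ⟨y, hy0, h1, h2, h3, h4⟩

end Fermat.Agent.R38
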