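/-
Row 38 (S44), block G, junction **J-G3** (helper56; inputs: helper54 `EmbedAbs`, helper14
`FrobRelFinal`): a nonzero `p`-new eigen-class for the system `ℓ ↦ a_ℓ(W)` gives a Galois
embedding of `E[p]`, `E` the integral Frey model, into the `p`-new eigenspace.

`jg3_at` is the statement `SpJG3` of `R38/Spine.lean`, unfolded.
-/
import Fermat.Agent.R38.G.Main
import Fermat.Agent.R38.G.EmbedAbs
import Fermat.Agent.R38.G.FrobRelFinal

set_option autoImplicit false
set_option linter.style.haveILetI false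
set_option linter.unusedSectionVars false

noncomputable section

open WeierstrassCurve WeierstrassCurve.Affine WeierstrassCurve.Affine.Point

namespace Fermat.Agent.R38

open ModularCurve AlgebraicCurve
open Fermat.Agent.AtkinLehner (ALData)

local notation "Qb" => (AlgebraicClosure ℚ)
local notation "GQ" => (AlgebraicClosure ℚ ≃ₐ[ℚ] AlgebraicClosure ℚ)

/-- **J-G3**, unfolded. -/
theorem jg3_at (P : FreyPackage) (D : ALData) [NeZero D.Q] [NeZero D.R] [NeZero (D.Q * D.R)]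
    (hQ : D.Q = P.p)
    (hirr : GaloisRepIsIrreducible (K := AlgebraicClosure ℚ) ℚ P.freyCurve P.p)
    (W : WeierstrassCurve ℤ) (S : Finset ℕ) (hW : W.IsIntegralModelOf P.freyCurve)
    (hSbad : ∀ ℓ : ℕ, ℓ.Prime → ¬ W.IsGoodPrimeFor ℓ → ℓ ∈ S)
    (hy : ∃ y : JZero (D.Q * D.R), y ≠ 0 ∧
      y ∈ newEigenAt (mul_comm D.Q D.R) D rfl S (fun ℓ => W.apOfModel ℓ)) :
    ∃ θ : ↥(Submodule.torsionBy ℤ ((P.freyCurveInt.map (Int.castRingHom ℚ))⁄Qb).Point
        ((P.p : ℕ) : ℤ)) →+ JZero (D.Q * D.R),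
      Function.Injective θ ∧
      (∀ (σ : GQ) (x : ↥(Submodule.torsionBy ℤ
        ((P.freyCurveInt.map (Int.castRingHom ℚ))⁄Qb).Point ((P.p : ℕ) : ℤ))),
          θ (σ • x) = σ • θ x) ∧
      ∀ x, θ x ∈ newEigenAt (mul_comm D.Q D.R) D rfl S (fun ℓ => W.apOfModel ℓ) := by
  haveI : Fact P.p.Prime := ⟨P.pp⟩
  have hE : P.freyCurveInt.map (Int.castRingHom ℚ) = P.freyCurve :=
    Fermat.Agent.FreyLib.freyCurveInt_map P
  have hW' : W.IsIntegralModelOf (P.freyCurveInt.map (Int.castRingHom ℚ)) := by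
    rw [hE]; exact hW
  have hirr' : GaloisRepIsIrreducible (K := AlgebraicClosure ℚ) ℚ
      (P.freyCurveInt.map (Int.castRingHom ℚ)).toAffine P.p := by
    rw [hE]; exact hirr
  have hΔ : W.Δ ≠ 0 := frey_model_Δ_ne_zero P hW
  have hp2 : P.p ≠ 2 := by
    have := P.hp5
    omega
  obtain ⟨y, hy0, hyV⟩ := hy
  refine blr_embed_addSubgroup_of_model_forall (P.freyCurveInt.map (Int.castRingHom ℚ)) W P.p
    hΔ hW' hp2 hirr' (newEigenAt (mul_comm D.Q D.R) D rfl S (fun ℓ => W.apOfModel ℓ))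
    ?_ ?_ ⟨y, hyV, hy0⟩ ?_
  · intro x hx
    have h1 : D.Q • x = 0 := hx.1
    rw [← hQ]
    exact h1
  · intro g x hx
    exact smul_mem_newEigenAt (Fermat.Agent.F3G.heckeGaloisComm (D.Q * D.R)) g hx
  · intro g t d ht hd x hx
    have h1 : D.Q • x = 0 := hx.1
    exact g3a_frobRel (D.Q * D.R) W S
      (fun ℓ hℓ hℓS => by_contra fun h => hℓS (hSbad ℓ hℓ h)) g t d ht hd
      (by rw [← hQ]; exact h1) hx.2.2.2

end Fermat.Agent.R38
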