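/-
Row 38 (target S44), block G: the junction `SpJG1` of the spine (helper56; compiled and landed by
helper11): wrapper of `jg1_at` (`R38/G/JG1.lean`).
-/
import Fermat.Agent.R38.Spine
import Fermat.Agent.R38.G.JG1

set_option autoImplicit false

noncomputable section

namespace Fermat.Agent.R38

/-- **J-G1**. -/
theorem spJG1 : SpJG1 := by
  intro P D _ _ _ hQ hQR _ hmod
  obtain ⟨W, S, hW, hS, h⟩ := jg1_at P D hQ hQR hmod
  exact ⟨W, S, hW, hS, h.imp id (fun ⟨y, hy0, hy⟩ => ⟨y, hy0, hy⟩)⟩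

end Fermat.Agent.R38
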