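/-
Row 38 (S44), block G: the junction **J-G3** in the language of the spine (`R38/Spine.lean`).
-/
import Fermat.Agent.R38.Spine
import Fermat.Agent.R38.G.JG3At

set_option autoImplicit false
set_option linter.style.haveILetI false
set_option linter.unusedSectionVars false

noncomputable section

namespace Fermat.Agent.R38

/-- **J-G3**. -/
theorem spJG3 : SpJG3 := by
  intro P D _ _ _ hQ _ _ hirr W S hW hS hy
  obtain ⟨θ, h1, h2, h3⟩ := jg3_at P D hQ hirr W S hW hS.2.2 hy
  exact ⟨θ, h1, h2, h3⟩

end Fermat.Agent.R38
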